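import Fermat.Agent.Lowering.P6.Tangent.Spanning
import Fermat.Agent.Lowering.P1.Primes.Basic

/-!
# Tangent vectors give cocycles

A derivation at the residual point turns a lift of the residual representation into a cocycle of
the adjoint representation with trace zero, which is a coboundary only if the derivation vanishes.
-/

set_option autoImplicit false
set_option linter.unusedSectionVars false
set_option linter.style.haveILetI false

noncomputable section

open IsLocalRing FLTAgent.Deformation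
open FLTAgent.Lowering.P1 (LevC)

namespace FLTAgent.Lowering.P6.Tangent

local notation "LL" => AlgebraicClosure ℚ
local notation "GG" => (AlgebraicClosure ℚ ≃ₐ[ℚ] AlgebraicClosure ℚ)
local notation "M2" => Matrix (Fin 2) (Fin 2)

variable {p : ℕ} [Fact p.Prime] {O : Type} [CommRing O] [IsDomain O] [IsDiscreteValuationRing O]
  [Algebra ℤ_[p] O]

/-- A lift of the residual representation with the traces of a level. -/
structure Lift (R : Residual p O) {X : Aux R.S} (L : LevelData X) where
  ρ : GG →* GL (Fin 2) L.R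
  tr_eq : ∀ σ, trGL (ρ σ) = trGL (L.ρ σ)
  red_eq : ∀ σ i j, L.red ((ρ σ : M2 L.R) i j) = rbM R σ i j

/-- A derivation at a point with values in the residue field, killing the constants. -/
structure IsDer {A : Type} [CommRing A] [Algebra O A] (red : A →ₐ[O] (ResidueField O)) (d : A → (ResidueField O)) : Prop where
  add : ∀ x y, d (x + y) = d x + d y
  mul : ∀ x y, d (x * y) = red x * d y + red y * d x
  const : ∀ a : O, d (algebraMap O A a) = 0

namespace IsDer

variable {A : Type} [CommRing A] [Algebra O A] {red : A →ₐ[O] (ResidueField O)} {d : A → (ResidueField O)}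

theorem zero' (h : IsDer red d) : d 0 = 0 := by simpa using h.const 0

theorem one (h : IsDer red d) : d 1 = 0 := by simpa using h.const 1

theorem natCast (h : IsDer red d) (n : ℕ) : d n = 0 := by simpa using h.const n

theorem sub (h : IsDer red d) (x y : A) : d (x - y) = d x - d y := by
  rw [eq_sub_iff_add_eq, ← h.add, sub_add_cancel]

/-- As an additive map. -/
def hom (h : IsDer red d) : A →+ (ResidueField O) := AddMonoidHom.mk' d h.add

theorem hom_apply (h : IsDer red d) (x : A) : h.hom x = d x := rfl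

theorem map_sum {ι : Type*} (h : IsDer red d) (s : Finset ι) (f : ι → A) :
    d (∑ i ∈ s, f i) = ∑ i ∈ s, d (f i) := _root_.map_sum h.hom f s

theorem map_matrix_mul (h : IsDer red d) (M N : M2 A) :
    (M * N).map d = M.map red * N.map d + M.map d * N.map red := by
  ext i j
  simp only [Matrix.map_apply, Matrix.add_apply, Matrix.mul_apply, h.map_sum, h.mul,
    ← Finset.sum_add_distrib]
  exact Finset.sum_congr rfl fun x _ => by ring

theorem det (h : IsDer red d) (M : M2 A) :
    d M.det = (M.map d * (M.map red).adjugate).trace := by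
  rw [Matrix.det_fin_two, h.sub, h.mul, h.mul]
  simp [Matrix.adjugate_fin_two, Matrix.trace_fin_two, Matrix.mul_apply, Fin.sum_univ_two]
  ring

end IsDer

variable (R : Residual p O) [Algebra (ZMod p) (ResidueField O)] {X : Aux R.S} (L : LevelData X)

/-- The residual representation is the extended one. -/
def Compat : Prop := ∀ σ : GG, rbM R σ = (R.D.rbk (ResidueField O) σ : M2 (ResidueField O))

theorem natCast_p : (p : (ResidueField O)) = 0 := by
  rw [← map_natCast (algebraMap (ZMod p) (ResidueField O)), ZMod.natCast_self, map_zero]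

include R in
theorem two_ne : (2 : (ResidueField O)) ≠ 0 := fun h => by
  have h1 : algebraMap (ZMod p) (ResidueField O) 2 = algebraMap (ZMod p) (ResidueField O) 0 := by rw [map_ofNat, h, map_zero]
  exact P1.Primes.two_ne_zero' R.D.p_gt ((algebraMap (ZMod p) (ResidueField O)).injective h1)

theorem two_isUnit : IsUnit (2 : L.R) := by
  rw [← IsLocalRing.notMem_maximalIdeal, ← red_eq_zero_iff L.red, map_ofNat]
  exact two_ne R

namespace Lift

variable {R L} (Lf : Lift R L)

theorem span_eq_top : Submodule.span L.R (Set.range fun σ => (Lf.ρ σ : M2 L.R)) = ⊤ :=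
  span_range_eq_top (r := (Units.coeHom (M2 L.R)).comp Lf.ρ)
    (spansResidue_of_red R.S L.red _ fun σ => Matrix.ext fun i j => Lf.red_eq σ i j)

theorem eq_one {s : GG} (h : L.ρ s = 1) : Lf.ρ s = 1 :=
  eq_one_of_traces Lf.ρ Lf.span_eq_top s fun g => by
    rw [Lf.tr_eq, Lf.tr_eq, map_mul, h, mul_one]

theorem det_eq (σ : GG) : detGL (Lf.ρ σ) = detGL (L.ρ σ) :=
  detGL_eq_of_trGL (two_isUnit R L) _ _ Lf.tr_eq σ

theorem exists_level : ∃ F : IntermediateField ℚ LL, FiniteDimensional ℚ F ∧
    ∀ s ∈ F.fixingSubgroup, ∀ i j,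
      (Lf.ρ s : M2 L.R) i j - (1 : M2 L.R) i j ∈ Ideal.span {(p : L.R)} := by
  obtain ⟨F, hF, h⟩ := L.continuous 1
  refine ⟨F, hF, fun s hs i j => entry_sub_one_mem Lf.ρ Lf.span_eq_top _ s (fun g => ?_) i j⟩
  have hs' := h s ((IntermediateField.mem_fixingSubgroup_iff F s).1 hs)
  rw [pow_one] at hs'
  rw [Lf.tr_eq, Lf.tr_eq, map_mul, trGL, trGL, Units.val_mul]
  have e : ((L.ρ g : M2 L.R) * (L.ρ s : M2 L.R)).trace - (L.ρ g : M2 L.R).trace =
      ∑ a, ∑ b, (L.ρ g : M2 L.R) a b * ((L.ρ s : M2 L.R) b a - (1 : M2 L.R) b a) := by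
    rw [← Matrix.trace_sub, ← mul_one (L.ρ g : M2 L.R), mul_assoc, one_mul, ← mul_sub]
    simp [Matrix.trace, Matrix.mul_apply, mul_sub, mul_one]
  rw [e]
  exact Ideal.sum_mem _ fun a _ => Ideal.sum_mem _ fun b _ => Ideal.mul_mem_left _ _ (hs' b a)

/-- The cocycle of a function on the algebra. -/
def zLin : (L.R → (ResidueField O)) →ₗ[(ResidueField O)] (GG → M2 (ResidueField O)) where
  toFun d σ := (Lf.ρ σ : M2 L.R).map d * (((R.D.rbk (ResidueField O) σ)⁻¹ : GL (Fin 2) (ResidueField O)) : M2 (ResidueField O))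
  map_add' d d' := funext fun σ => by
    rw [Pi.add_apply, ← add_mul]
    rfl
  map_smul' a d := funext fun σ => by
    rw [RingHom.id_apply, Pi.smul_apply, ← smul_mul_assoc]
    rfl

theorem zLin_apply (d : L.R → (ResidueField O)) (σ : GG) :
    Lf.zLin d σ = (Lf.ρ σ : M2 L.R).map d * (((R.D.rbk (ResidueField O) σ)⁻¹ : GL (Fin 2) (ResidueField O)) : M2 (ResidueField O)) := rfl

theorem zLin_mul_rbk (d : L.R → (ResidueField O)) (σ : GG) :
    Lf.zLin d σ * (R.D.rbk (ResidueField O) σ : M2 (ResidueField O)) = (Lf.ρ σ : M2 L.R).map d := by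
  rw [zLin_apply, mul_assoc, ← Units.val_mul, inv_mul_cancel, Units.val_one, mul_one]

theorem tw_zero_apply (σ : GG) (A : M2 (ResidueField O)) :
    R.D.tw (ResidueField O) 0 σ A =
      (R.D.rbk (ResidueField O) σ : M2 (ResidueField O)) * A * (((R.D.rbk (ResidueField O) σ)⁻¹ : GL (Fin 2) (ResidueField O)) : M2 (ResidueField O)) := by
  rw [P1.Primes.tw_eq, P1.Primes.twG_apply, pow_zero, map_one, one_smul, map_inv, mul_assoc]
  rfl

variable (hk : Compat R)
include hk

theorem red_map (σ : GG) : (Lf.ρ σ : M2 L.R).map L.red = (R.D.rbk (ResidueField O) σ : M2 (ResidueField O)) :=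
  hk σ ▸ Matrix.ext fun i j => Lf.red_eq σ i j

theorem red_det (σ : GG) (n : ℕ) (hn : DetCyclo.CycloExponent p 1 σ n) :
    L.red (detGL (Lf.ρ σ)) = n := by
  have h := L.det_cyclotomic 1 σ n hn
  rw [pow_one, Ideal.mem_span_singleton] at h
  obtain ⟨x, hx⟩ := h
  rw [Lf.det_eq, eq_add_of_sub_eq hx, map_add, map_mul, map_natCast, map_natCast, natCast_p,
    zero_mul, zero_add]

variable {d : L.R → (ResidueField O)} (hd : IsDer L.red d)
include hd

omit hk in
theorem d_mul_p (x : L.R) : d ((p : L.R) * x) = 0 := by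
  rw [hd.mul, hd.natCast, map_natCast, natCast_p, mul_zero, zero_mul, add_zero]

theorem zLin_mul (σ τ : GG) :
    Lf.zLin d (σ * τ) = Lf.zLin d σ + R.D.tw (ResidueField O) 0 σ (Lf.zLin d τ) := by
  have hm : R.D.rbk (ResidueField O) (σ * τ) = R.D.rbk (ResidueField O) σ * R.D.rbk (ResidueField O) τ := by
    rw [P1.Datum.rbk, map_mul, map_mul]
    rfl
  have h1 : (R.D.rbk (ResidueField O) τ : M2 (ResidueField O)) * (((R.D.rbk (ResidueField O) τ)⁻¹ : GL (Fin 2) (ResidueField O)) : M2 (ResidueField O)) = 1 := by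
    rw [← Units.val_mul, mul_inv_cancel, Units.val_one]
  rw [zLin_apply, zLin_apply, zLin_apply, tw_zero_apply, map_mul, Units.val_mul, hd.map_matrix_mul,
    Lf.red_map hk, Lf.red_map hk, hm, mul_inv_rev, Units.val_mul, add_mul, add_comm]
  congr 1
  · rw [mul_assoc, ← mul_assoc (R.D.rbk (ResidueField O) τ : M2 (ResidueField O)), h1, one_mul]
  · simp only [mul_assoc]

theorem zLin_trace (σ : GG) : (Lf.zLin d σ).trace = 0 := by
  obtain ⟨n, hn⟩ := DetCyclo.exists_cycloExponent (p := p) 1 σ
  have hD : d (detGL (Lf.ρ σ)) = 0 := by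
    have h := L.det_cyclotomic 1 σ n hn
    rw [pow_one, Ideal.mem_span_singleton] at h
    obtain ⟨x, hx⟩ := h
    rw [Lf.det_eq, eq_add_of_sub_eq hx, hd.add, d_mul_p hd, hd.natCast, add_zero]
  set Rm : M2 (ResidueField O) := (R.D.rbk (ResidueField O) σ : M2 (ResidueField O))
  set Ri : M2 (ResidueField O) := (((R.D.rbk (ResidueField O) σ)⁻¹ : GL (Fin 2) (ResidueField O)) : M2 (ResidueField O))
  have h1 : Rm * Ri = 1 := by rw [← Units.val_mul, mul_inv_cancel, Units.val_one]
  have hadj : Rm.adjugate = Rm.det • Ri := by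
    rw [← mul_one Rm.adjugate, ← h1, ← mul_assoc, Matrix.adjugate_mul, smul_mul_assoc, one_mul]
  have hne : Rm.det ≠ 0 := by
    intro h0
    have := congrArg Matrix.det h1
    rw [Matrix.det_mul, h0, zero_mul, Matrix.det_one] at this
    exact zero_ne_one this
  rw [show detGL (Lf.ρ σ) = (Lf.ρ σ : M2 L.R).det from rfl, hd.det, Lf.red_map hk] at hD
  change ((Lf.ρ σ : M2 L.R).map d * Rm.adjugate).trace = 0 at hD
  rw [hadj, mul_smul_comm, Matrix.trace_smul, smul_eq_mul, mul_eq_zero] at hD
  exact hD.resolve_left hne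

omit hd in
theorem zLin_levC (hd : IsDer L.red d) : LevC (MonoidHom.id GG) (Lf.zLin d) := by
  obtain ⟨F, hF, h⟩ := Lf.exists_level
  refine ⟨F, hF, fun g s hs => ?_⟩
  have hz : Lf.zLin d s = 0 := by
    have h0 : (Lf.ρ s : M2 L.R).map d = 0 := by
      ext i j
      obtain ⟨x, hx⟩ := Ideal.mem_span_singleton.1 (h s hs i j)
      rw [Matrix.map_apply, Matrix.zero_apply, eq_add_of_sub_eq hx, hd.add, d_mul_p hd, zero_add,
        Matrix.one_apply]
      split <;> simp [hd.one, hd.zero']
    rw [zLin_apply, h0, zero_mul]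
  show Lf.zLin d (g * s) = _
  rw [Lf.zLin_mul hk hd, hz, map_zero, add_zero]

theorem zLin_mem : Lf.zLin d ∈ R.D.cocycles (ResidueField O) 0 (MonoidHom.id GG) :=
  ⟨Lf.zLin_levC hk hd, Lf.zLin_trace hk hd, Lf.zLin_mul hk hd⟩

/-- A derivation whose cocycle is a coboundary vanishes. -/
theorem eq_zero_of_cobs (h : Lf.zLin d ∈ R.D.cobs (ResidueField O) 0 (MonoidHom.id GG)) : d = 0 := by
  obtain ⟨m, -, hm⟩ := (P1.Primes.mem_cobs_iff R.D (ResidueField O)).1 h
  have htr : ∀ σ, d (trGL (Lf.ρ σ)) = 0 := fun σ => by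
    have e : d (trGL (Lf.ρ σ)) = ((Lf.ρ σ : M2 L.R).map d).trace := by
      simp [trGL, Matrix.trace_fin_two, hd.add]
    rw [e, ← Lf.zLin_mul_rbk, hm, MonoidHom.id_apply, tw_zero_apply, sub_mul, mul_assoc,
      ← Units.val_mul, inv_mul_cancel, Units.val_one, mul_one, Matrix.trace_sub,
      Matrix.trace_mul_comm, sub_self]
  funext x
  have hx : x ∈ Algebra.adjoin O (Set.range fun σ => trGL (Lf.ρ σ)) := by
    rw [show (fun σ => trGL (Lf.ρ σ)) = fun σ => trGL (L.ρ σ) from funext Lf.tr_eq, L.generated]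
    trivial
  induction hx using Algebra.adjoin_induction with
  | mem y hy => obtain ⟨σ, rfl⟩ := hy; exact htr σ
  | algebraMap a => exact hd.const a
  | add y z _ _ hy hz => rw [hd.add, hy, hz]; simp
  | mul y z _ _ hy hz => rw [hd.mul, hy, hz]; simp

end Lift

/-- A trace zero matrix commuting with the whole residual image vanishes. -/
theorem bdy_injective {m : M2 (ResidueField O)} (hm : m.trace = 0)
    (h : ∀ σ : GG, R.D.tw (ResidueField O) 0 σ m = m) : m = 0 := by
  refine P1.Primes.eq_zero_of_invariant R.D.p_gt 0 hm ?_ ?_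
  · obtain ⟨σ, hσ⟩ := R.D.surjective (P1.Primes.upperU p 1)
    rw [← hσ, ← P1.Primes.tw_eq]
    exact h σ
  · obtain ⟨σ, hσ⟩ := R.D.surjective (P1.Primes.lowerU p)
    rw [← hσ, ← P1.Primes.tw_eq]
    exact h σ

end FLTAgent.Lowering.P6.Tangent
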