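import Fermat.Agent.Lowering.P6.Tangent.Morita
import Fermat.Agent.FlatLocal.Bound
import Fermat.Agent.DeligneSerre.TorsionRoot

/-!
# The local bound at `p`

The pieces of the representation inside the torsion of good reduction are flat at `p`. Through the
matrix action the lift attached to a tangent vector is a quotient of a subgroup of a power of such
a piece, so it is flat and its cocycle lies in the space of the flat tangent bound.
-/

set_option autoImplicit false
set_option linter.unusedSectionVars false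
set_option linter.style.haveILetI false

noncomputable section

open IsLocalRing FLTAgent.FlatLocal
open FLTAgent.Lowering.P1 (Datum)

namespace FLTAgent.Lowering.P6.Tangent

local notation "LL" => AlgebraicClosure ℚ
local notation "GG" => (AlgebraicClosure ℚ ≃ₐ[ℚ] AlgebraicClosure ℚ)
local notation "M2" => Matrix (Fin 2) (Fin 2)

/-! ### Powers of flat representations -/

section Powers

variable {P : ValuationSubring LL} {W : Type} [AddCommGroup W]

theorem flatI_subsingleton [Subsingleton W] (act : Dec P → AddMonoid.End W) : FlatI P act := by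
  classical
  refine ⟨{1}, fun σ _ a b _ => Subsingleton.elim a b, ?_, ?_, ?_, ?_, ?_, ?_⟩
  · simpa using P.one_mem
  · simp
  · rw [Finset.coe_singleton, eq_top_iff]
    intro f _
    rw [Submodule.mem_span_singleton]
    exact ⟨f 0, funext fun x => by simp [Subsingleton.elim x 0]⟩
  · exact Submodule.subset_span (by simp)
  · intro f hf g hg
    rw [Finset.mem_singleton] at hf hg
    subst hf hg
    exact Submodule.subset_span (by simp)
  · intro f hf
    rw [Finset.mem_singleton] at hf
    subst hf
    exact Submodule.subset_span ⟨1, by simp, 1, by simp, funext fun x => by simp [tens]⟩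

variable [Finite W] {act : Dec P → AddMonoid.End W} (h : FlatI P act)
include h

theorem flatI_fin (n : ℕ) :
    FlatI P fun σ : Dec P =>
      ((act σ : W →+ W).compLeft (Fin n) : AddMonoid.End (Fin n → W)) := by
  induction n with
  | zero => exact flatI_subsingleton _
  | succ n ih =>
    let ι : (Fin (n + 1) → W) ≃+ W × (Fin n → W) :=
      { toFun := fun f => (f 0, Fin.tail f)
        invFun := fun x => Fin.cons x.1 x.2
        left_inv := fun f => Fin.cons_self_tail f
        right_inv := fun x => by simp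
        map_add' := fun f g => rfl }
    exact (FlatI.prod h ih (fun σ => ((act σ : W →+ W).prodMap
      ((act σ : W →+ W).compLeft (Fin n)) : AddMonoid.End (W × (Fin n → W)))) fun σ _ x => rfl).congr
        ι fun σ _ f => rfl

theorem flatI_pi (κ : Type) [Finite κ] :
    FlatI P fun σ : Dec P => ((act σ : W →+ W).compLeft κ : AddMonoid.End (κ → W)) := by
  obtain ⟨n, ⟨e⟩⟩ := Finite.exists_equiv_fin κ
  let ι : (κ → W) ≃+ (Fin n → W) :=
    { Equiv.arrowCongr e (Equiv.refl W) with map_add' := fun f g => rfl }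
  exact (flatI_fin h n).congr ι fun σ _ f => rfl

end Powers

variable {p : ℕ} [Fact p.Prime] {O : Type} [CommRing O] [IsDomain O] [IsDiscreteValuationRing O]
  [Algebra ℤ_[p] O] {R : Residual p O} [Algebra (ZMod p) (ResidueField O)] {X : Aux R.S}
  {L : LevelData X} (Lf : Lift R L) (hk : Compat R) {P : ValuationSubring LL}
  (hP : P.LiesOverPrime p)

include hk hP

/-- The pieces inside torsion are flat. -/
theorem exists_flat_piece : ∃ (W : Type) (_ : AddCommGroup W) (_ : Module L.R W) (_ : Finite W)
    (actW : GG →* Module.End L.R W),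
    (∀ (σ : GG) (w : W),
      actW σ (actW σ w) + detGL (L.ρ σ) • w = trGL (L.ρ σ) • actW σ w) ∧
    (∀ t : L.R, (∀ w : W, t • w = 0) → t ∈ Ideal.span {(p : L.R)}) ∧
    FlatI P fun σ : Dec P => ((actW (σ : GG)).toAddMonoidHom : AddMonoid.End W) := by
  obtain ⟨M', hM', Z, s, hA, h⟩ := L.torsion
  obtain ⟨W, hW1, hW2, hW3, actW, -, hrel, hann, d, j, tw, hj, -, htwp, -, hjeq⟩ := h (s + 1)
  refine ⟨W, hW1, hW2, hW3, actW, hrel, fun t ht => by simpa using hann t ht, ?_⟩
  haveI : NeZero (p ^ (s + 1)) := ⟨pow_ne_zero _ (Fact.out : p.Prime).ne_zero⟩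
  haveI : Finite (Additive (CongruenceSubgroup.Gamma1 M') →+ ZMod (p ^ (s + 1))) :=
    DeligneSerre.Tors.finite_hom (ZMod (p ^ (s + 1)))
  haveI : Finite (PeriodHecke.Hpar (CongruenceSubgroup.Gamma1 M') (ZMod (p ^ (s + 1)))) :=
    inferInstance
  refine (flatI_fin (Z.flat hA.not_dvd (s + 1) P hP) d).restrict j hj fun σ hσ w => ?_
  show j (actW (σ : GG) w) = _
  rw [hjeq, htwp P hP _ hσ]
  rfl

include Lf

/-- Quotients of the plane over the algebra by maps killing `p` are flat. -/
theorem flatI_of_plane {U : Type} [AddCommGroup U] [Module (ResidueField O) U]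
    (actU : Dec P → Module.End (ResidueField O) U) (φ : (Fin 2 → L.R) →+ U)
    (hφ : Function.Surjective φ) (hker : ∀ x, (∀ i, x i ∈ Ideal.span {(p : L.R)}) → φ x = 0)
    (heq : ∀ (σ : Dec P) x, φ ((Lf.ρ (σ : GG) : M2 L.R).mulVec x) = actU σ (φ x)) :
    FlatI P actU := by
  obtain ⟨W, i1, i2, i3, actW, hrel, hann, hflat⟩ := exists_flat_piece hk hP (L := L)
  obtain ⟨Φ, hΦ, hΦ0⟩ := exists_plane_map Lf hk actW hrel
  let F : (Fin 2 → L.R) →+ (W → W) := Φ.toAddMonoidHom
  let actV : Dec P → AddMonoid.End F.range := fun σ =>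
    ((((actW (σ : GG)).toAddMonoidHom).compLeft W).comp F.range.subtype).codRestrict F.range
      fun f => by
        obtain ⟨x, hx⟩ := f.2
        exact ⟨_, (hΦ σ x).trans (funext fun w => by
          show actW (σ : GG) (Φ x w) = actW (σ : GG) ((f : W → W) w)
          rw [← hx]; rfl)⟩
  have hV : FlatI P actV := (flatI_pi hflat W).restrict F.range.subtype Subtype.val_injective
    fun σ _ f => rfl
  have hFs : Function.Surjective F.rangeRestrict := F.rangeRestrict_surjective
  have hle : F.rangeRestrict.ker ≤ φ.ker := fun x hx => by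
    rw [AddMonoidHom.ker_rangeRestrict, AddMonoidHom.mem_ker] at hx
    exact hker x fun i => hann _ (hΦ0 x hx i)
  let π : F.range →+ U := F.rangeRestrict.liftOfSurjective hFs ⟨φ, hle⟩
  have hπ : ∀ x, π (F.rangeRestrict x) = φ x := fun x =>
    AddMonoidHom.liftOfRightInverse_comp_apply _ _ _ ⟨φ, hle⟩ x
  refine FlatI.quotient (p := p) hP hV π (fun u => ?_) fun σ _ f => ?_
  · obtain ⟨x, rfl⟩ := hφ u
    exact ⟨_, hπ x⟩
  · obtain ⟨x, rfl⟩ := hFs f
    rw [hπ, ← heq, ← hπ]
    exact congrArg π (Subtype.ext (hΦ σ x).symm)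

omit hk hP Lf in
/-- The residual representation at `p` with prime coefficients. -/
def rbAt (R : Residual p O) (P : ValuationSubring LL) : Dec P →* Mat2 p :=
  (Units.coeHom (M2 (ZMod p))).comp (R.D.rb.comp (P.decompositionSubgroup ℚ).subtype)

omit hk hP Lf in
theorem rk_rbAt (σ : Dec P) :
    rk (k := ResidueField O) (rbAt R P) σ = (R.D.rbk (ResidueField O) (σ : GG) : M2 (ResidueField O)) :=
  rfl

omit hP in
theorem map_red_mulVec (σ : GG) (x : Fin 2 → L.R) :
    (fun i => L.red ((Lf.ρ σ : M2 L.R).mulVec x i)) =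
      (R.D.rbk (ResidueField O) σ : M2 (ResidueField O)).mulVec fun i => L.red (x i) := by
  rw [← Lf.red_map hk σ]
  funext i
  simp [Matrix.mulVec, dotProduct, map_sum]

omit hk hP Lf in
theorem red_p_mul {y : L.R} (hy : y ∈ Ideal.span {(p : L.R)}) : L.red y = 0 := by
  obtain ⟨z, rfl⟩ := Ideal.mem_span_singleton.1 hy
  rw [map_mul, map_natCast, natCast_p, zero_mul]

/-- The residual representation is flat, coefficients extended. -/
theorem flatI_residual_ext :
    FlatI P fun σ : Dec P => (rk (k := ResidueField O) (rbAt R P) σ).mulVecLin := by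
  let φ : (Fin 2 → L.R) →+ (Fin 2 → ResidueField O) := (L.red : L.R →+ ResidueField O).compLeft _
  refine flatI_of_plane Lf hk hP _ φ (fun v => ?_) (fun x hx => funext fun i => ?_) fun σ x => ?_
  · choose y hy using fun i => red_surjective L.red (v i)
    exact ⟨y, funext hy⟩
  · exact red_p_mul (hx i)
  · exact map_red_mulVec Lf hk σ x

/-- The residual representation is flat. -/
theorem flatI_residual : FlatI P (actV (rbAt R P)) := by
  refine (flatI_residual_ext Lf hk hP).restrict
    ((algebraMap (ZMod p) (ResidueField O)).toAddMonoidHom.compLeft (Fin 2))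
    (fun a b e => funext fun i => (algebraMap (ZMod p) (ResidueField O)).injective (congrFun e i))
    fun σ _ v => funext fun i => ?_
  show algebraMap (ZMod p) _ ((rbAt R P σ).mulVec v i) = _
  simp [rk, Matrix.mulVec, dotProduct, map_sum, AddMonoidHom.compLeft]

/-- Coboundaries have flat lifts. -/
theorem flatI_cobs (m : M2 (ResidueField O)) (c : Dec P → M2 (ResidueField O))
    (hc : ∀ σ, c σ * rk (rbAt R P) σ = rk (rbAt R P) σ * m - m * rk (rbAt R P) σ) :
    FlatI P (actWK (rbAt R P) c) := by
  haveI : Finite (ResidueField O) := Finite.of_equiv _ R.e.toEquiv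
  have h0 := flatI_residual_ext Lf hk hP
  let a : Dec P → Module.End (ResidueField O) (Fin 2 → ResidueField O) := fun σ =>
    (rk (rbAt R P) σ).mulVecLin
  let ι : ((Fin 2 → ResidueField O) × (Fin 2 → ResidueField O)) ≃+
      ((Fin 2 → ResidueField O) × (Fin 2 → ResidueField O)) :=
    { toFun := fun x => (x.1, x.2 + m.mulVec x.1)
      invFun := fun x => (x.1, x.2 - m.mulVec x.1)
      left_inv := fun x => Prod.ext rfl (add_sub_cancel_right _ _)
      right_inv := fun x => Prod.ext rfl (sub_add_cancel _ _)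
      map_add' := fun x y => by
        refine Prod.ext rfl ?_
        simp only [Prod.fst_add, Prod.snd_add, Matrix.mulVec_add]
        abel }
  refine (FlatI.prod h0 h0 (fun σ => (a σ).prodMap (a σ)) fun σ _ x => rfl).congr ι fun σ _ x => ?_
  obtain ⟨x, v⟩ := x
  refine Prod.ext rfl ?_
  show (rk (rbAt R P) σ).mulVec v + (c σ * rk (rbAt R P) σ).mulVec x +
    m.mulVec ((rk (rbAt R P) σ).mulVec x) = (rk (rbAt R P) σ).mulVec (v + m.mulVec x)
  rw [hc, Matrix.sub_mulVec, Matrix.mulVec_add, Matrix.mulVec_mulVec, Matrix.mulVec_mulVec]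
  abel

/-- The lift of a non zero tangent vector is flat. -/
theorem flatI_tangent {d : L.R → ResidueField O} (hd : IsDer L.red d) (hne : d ≠ 0) :
    FlatI P (actWK (rbAt R P) fun σ : Dec P => Lf.zLin d (σ : GG)) := by
  let φ : (Fin 2 → L.R) →+ (Fin 2 → ResidueField O) × (Fin 2 → ResidueField O) :=
    ((L.red : L.R →+ ResidueField O).compLeft _).prod (hd.hom.compLeft _)
  refine flatI_of_plane Lf hk hP _ φ (fun v => ?_) (fun x hx => ?_) fun σ x => ?_
  · obtain ⟨y, hy⟩ : ∃ y, d y ≠ 0 := Function.ne_iff.1 hne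
    obtain ⟨a, ha⟩ := residue_surjective (L.red y)
    set y' := y - algebraMap O L.R a with hy'
    have hr : L.red y' = 0 := by
      rw [hy', map_sub, L.red.commutes, IsLocalRing.ResidueField.algebraMap_eq, ha, sub_self]
    have hd' : d y' = d y := by rw [hy', hd.sub, hd.const, sub_zero]
    have hsurj : ∀ u w : ResidueField O, ∃ x, L.red x = u ∧ d x = w := by
      intro u w
      obtain ⟨s, hs⟩ := residue_surjective u
      obtain ⟨t, ht⟩ := residue_surjective (w / d y)
      refine ⟨algebraMap O L.R s + algebraMap O L.R t * y', ?_, ?_⟩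
      · rw [map_add, map_mul, hr, mul_zero, add_zero, L.red.commutes,
          IsLocalRing.ResidueField.algebraMap_eq, hs]
      · rw [hd.add, hd.mul, hd.const, hd.const, L.red.commutes,
          IsLocalRing.ResidueField.algebraMap_eq, ht, hd', mul_zero, zero_add, add_zero,
          div_mul_cancel₀ _ hy]
    choose x hx1 hx2 using fun i => hsurj (v.1 i) (v.2 i)
    exact ⟨x, Prod.ext (funext hx1) (funext hx2)⟩
  · refine Prod.ext (funext fun i => red_p_mul (hx i)) (funext fun i => ?_)
    obtain ⟨z, hz⟩ := Ideal.mem_span_singleton.1 (hx i)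
    show d (x i) = 0
    rw [hz]
    exact Lift.d_mul_p hd z
  · refine Prod.ext (map_red_mulVec Lf hk σ x) ?_
    show (fun i => d ((Lf.ρ (σ : GG) : M2 L.R).mulVec x i)) =
      (R.D.rbk (ResidueField O) (σ : GG) : M2 (ResidueField O)).mulVec (fun i => d (x i)) +
        (Lf.zLin d (σ : GG) * (R.D.rbk (ResidueField O) (σ : GG) : M2 (ResidueField O))).mulVec
          fun i => L.red (x i)
    rw [Lf.zLin_mul_rbk, ← Lf.red_map hk]
    funext i
    simp only [Matrix.mulVec, dotProduct, hd.map_sum, hd.mul, Pi.add_apply, Matrix.map_apply,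
      ← Finset.sum_add_distrib]
    exact Finset.sum_congr rfl fun j _ => by ring

omit hk hP Lf in
theorem isCocycleK {c : Dec P → M2 (ResidueField O)}
    (hc : c ∈ R.D.cocycles (ResidueField O) 0 (P.decompositionSubgroup ℚ).subtype) :
    IsCocycleK (rbAt R P) c where
  lev := hc.1
  trace := hc.2.1
  mul σ τ := by
    rw [hc.2.2, Lift.tw_zero_apply, rk_rbAt, rk_rbAt, Subgroup.coe_inv]
    congr 2
    rw [Datum.rbk, Datum.rbk, map_inv, map_inv, Subgroup.subtype_apply]

/-- The local space at `p`. -/
theorem exists_flatLoc :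
    ∃ Z : Submodule (ResidueField O) (Dec P → M2 (ResidueField O)),
      Z ≤ R.D.cocycles (ResidueField O) 0 (P.decompositionSubgroup ℚ).subtype ∧
      R.D.cobs (ResidueField O) 0 (P.decompositionSubgroup ℚ).subtype ≤ Z ∧
      FiniteDimensional (ResidueField O) ↥Z ∧ Module.finrank (ResidueField O) ↥Z ≤ 4 ∧
      ∀ d : L.R → ResidueField O, IsDer L.red d →
        Datum.resAt (ResidueField O) P (Lf.zLin d) ∈ Z := by
  classical
  haveI : Finite (ResidueField O) := Finite.of_equiv _ R.e.toEquiv
  haveI : NeZero (p : LL) := ⟨Nat.cast_ne_zero.2 (Fact.out : p.Prime).ne_zero⟩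
  obtain ⟨ζ, hζ⟩ := HasEnoughRootsOfUnity.exists_primitiveRoot LL p
  have hlev : FlatLocal.LevC P (rbAt R P) := by
    obtain ⟨F, hF, h⟩ := R.D.level
    refine ⟨F, hF, fun g s hs => ?_⟩
    have h1 := h (s : GG) ((IntermediateField.mem_fixingSubgroup_iff F _).1 hs)
    simp [rbAt, h1]
  have hdet : ∀ σ, (rbAt R P σ).det = omega ζ σ := fun σ => by
    rw [omega_eq_natCast hζ σ (R.D.det_cyclo (σ : GG) ζ hζ.pow_eq_one), ZMod.natCast_zmod_val]
    rfl
  obtain ⟨s, hs, hs'⟩ := tangentBound (le_of_lt R.D.p_gt) P hP ζ hζ (rbAt R P) hlev hdet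
    (flatI_residual Lf hk hP) (ResidueField O)
  set Z := R.D.cocycles (ResidueField O) 0 (P.decompositionSubgroup ℚ).subtype ⊓
    Submodule.span (ResidueField O) (s : Set (Dec P → M2 (ResidueField O)))
  haveI : FiniteDimensional (ResidueField O)
      ↥(Submodule.span (ResidueField O) (s : Set (Dec P → M2 (ResidueField O)))) :=
    Module.Finite.span_of_finite _ s.finite_toSet
  have hcob : R.D.cobs (ResidueField O) 0 (P.decompositionSubgroup ℚ).subtype ≤ Z := by
    intro c hc
    refine ⟨P1.Primes.cobs_le_cocycles R.D _ hc,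
      hs' c (isCocycleK (P1.Primes.cobs_le_cocycles R.D _ hc)) ?_⟩
    obtain ⟨m, -, hm⟩ := (P1.Primes.mem_cobs_iff R.D _).1 hc
    refine flatI_cobs Lf hk hP m c fun σ => ?_
    rw [hm, Lift.tw_zero_apply, rk_rbAt, sub_mul, mul_assoc]
    show _ * ((((R.D.rbk (ResidueField O) (σ : GG))⁻¹ : GL (Fin 2) (ResidueField O)) :
      M2 (ResidueField O)) * _) - _ = _
    rw [← Units.val_mul, inv_mul_cancel, Units.val_one, mul_one]
    rfl
  refine ⟨Z, inf_le_left, hcob,
    Submodule.finiteDimensional_of_le inf_le_right, ?_, fun d hd => ?_⟩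
  · exact (Submodule.finrank_mono inf_le_right).trans ((finrank_span_finset_le_card s).trans hs)
  · have hmem := P1.Primes.resAt_mem R.D (ResidueField O) (Lf.zLin_mem hk hd) P
    by_cases hne : d = 0
    · rw [hne, map_zero, map_zero]
      exact zero_mem _
    · exact ⟨hmem, hs' _ (isCocycleK hmem) (flatI_tangent Lf hk hP hd hne)⟩

end FLTAgent.Lowering.P6.Tangent
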