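import Fermat.Agent.Lowering.P6.Interface
import Fermat.Agent.Lowering.P1.Primes.Basic

/-!
# Local bounds away from `p`

A cocycle on a decomposition group away from `p` on which inertia acts through a `p`-group is
determined by its values at a tame generator and at a Frobenius element. This bounds the unramified
cocycles and the cocycles with unipotent lift at a prime where the representation is ramified.
-/

set_option autoImplicit false
set_option linter.unusedSectionVars false
set_option linter.style.haveILetI false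

noncomputable section

open scoped Pointwise
open FLTAgent.Lowering.P1 (LevC Datum)

namespace FLTAgent.Lowering.P6.Tangent

local notation "LL" => AlgebraicClosure ℚ
local notation "GG" => (AlgebraicClosure ℚ ≃ₐ[ℚ] AlgebraicClosure ℚ)
local notation "M2" => Matrix (Fin 2) (Fin 2)

variable {p : ℕ} [Fact p.Prime] (D : Datum p) (k : Type) [Field k] [Algebra (ZMod p) k]
  {l : ℕ} (V : ValuationSubring LL)

/-! ### Dimensions -/

theorem finrank_trZero : Module.finrank k ↥(Datum.trZero k) = 3 := by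
  have h := LinearMap.finrank_range_add_finrank_ker (Matrix.traceLinearMap (Fin 2) k k)
  have hr : LinearMap.range (Matrix.traceLinearMap (Fin 2) k k) = ⊤ := by
    rw [LinearMap.range_eq_top]
    intro a
    exact ⟨Matrix.single 0 0 a, by simp⟩
  rw [hr, finrank_top, Module.finrank_self, Module.finrank_matrix, Fintype.card_fin,
    Module.finrank_self] at h
  show Module.finrank k ↥(LinearMap.ker (Matrix.traceLinearMap (Fin 2) k k)) = 3
  omega

theorem finite_cobs {G : Type} [Group G] (j : G →* GG) :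
    FiniteDimensional k ↥(D.cobs k 0 j) :=
  Module.Finite.map _ _

theorem finrank_cobs_le {G : Type} [Group G] (j : G →* GG) :
    Module.finrank k ↥(D.cobs k 0 j) ≤ 3 :=
  (Submodule.finrank_map_le _ _).trans (finrank_trZero k).le

/-- A map with a small kernel and a small range. -/
theorem bound_of_map {E A B : Type} [AddCommGroup E] [Module k E] [AddCommGroup A] [Module k A]
    [FiniteDimensional k A] [AddCommGroup B] [Module k B] [FiniteDimensional k B] (Z : Submodule k E)
    (f : E →ₗ[k] A) (g : E →ₗ[k] B) (U : Submodule k A) (U' : Submodule k B)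
    (hf : ∀ z ∈ Z, f z ∈ U) (hg : ∀ z ∈ Z, f z = 0 → g z ∈ U')
    (h0 : ∀ z ∈ Z, f z = 0 → g z = 0 → z = 0) :
    FiniteDimensional k ↥Z ∧
      Module.finrank k ↥Z ≤ Module.finrank k ↥U + Module.finrank k ↥U' := by
  have hi : Function.Injective ((f.prod g).comp Z.subtype) := by
    rw [← LinearMap.ker_eq_bot, LinearMap.ker_eq_bot']
    intro z hz
    exact Subtype.ext (h0 z z.2 (congrArg Prod.fst hz) (congrArg Prod.snd hz))
  haveI : FiniteDimensional k ↥Z := Module.Finite.of_injective _ hi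
  refine ⟨this, ?_⟩
  rw [← LinearMap.finrank_range_add_finrank_ker (f.comp Z.subtype)]
  refine add_le_add (Submodule.finrank_mono ?_) ?_
  · rintro _ ⟨z, rfl⟩
    exact hf z z.2
  · refine LinearMap.finrank_le_finrank_of_injective
      (f := (g.comp (Z.subtype.comp (LinearMap.ker (f.comp Z.subtype)).subtype)).codRestrict U'
        fun z => hg z.1 z.1.2 z.2) ?_
    intro a b hab
    refine Subtype.ext (hi (Prod.ext (a.2.trans b.2.symm) ?_))
    exact congrArg Subtype.val hab

/-! ### The hom of a cocycle -/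

section Gen

variable {D k V}
variable {c : ↥(V.decompositionSubgroup ℚ) → M2 k} (hc : c ∈ D.cocycles k 0 (V.decompositionSubgroup ℚ).subtype)

/-- The affine action attached to a cocycle, with the residual image. -/
def affHom : ↥(V.decompositionSubgroup ℚ) →* Equiv.Perm (M2 k × GL (Fin 2) (ZMod p)) where
  toFun τ :=
    { toFun := fun x => (c τ + D.tw k 0 ((V.decompositionSubgroup ℚ).subtype τ) x.1, D.rb ((V.decompositionSubgroup ℚ).subtype τ) * x.2)
      invFun := fun x => (c τ⁻¹ + D.tw k 0 ((V.decompositionSubgroup ℚ).subtype τ⁻¹) x.1, D.rb ((V.decompositionSubgroup ℚ).subtype τ⁻¹) * x.2)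
      left_inv := fun x => by
        refine Prod.ext ?_ (by simp [← mul_assoc])
        show c τ⁻¹ + D.tw k 0 ((V.decompositionSubgroup ℚ).subtype τ⁻¹) (c τ + D.tw k 0 ((V.decompositionSubgroup ℚ).subtype τ) x.1) = x.1
        rw [map_add, ← P1.Primes.tw_mul, ← map_mul, inv_mul_cancel, map_one, P1.Primes.tw_one,
          ← add_assoc, ← hc.2.2, inv_mul_cancel, P1.Primes.coc_one D k hc, zero_add]
      right_inv := fun x => by
        refine Prod.ext ?_ (by simp [← mul_assoc])
        show c τ + D.tw k 0 ((V.decompositionSubgroup ℚ).subtype τ) (c τ⁻¹ + D.tw k 0 ((V.decompositionSubgroup ℚ).subtype τ⁻¹) x.1) = x.1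
        rw [map_add, ← P1.Primes.tw_mul, ← map_mul, mul_inv_cancel, map_one, P1.Primes.tw_one,
          ← add_assoc, ← hc.2.2, mul_inv_cancel, P1.Primes.coc_one D k hc, zero_add] }
  map_one' := Equiv.ext fun x => Prod.ext
    (by simp [P1.Primes.coc_one D k hc, P1.Primes.tw_one]) (by simp)
  map_mul' σ τ := Equiv.ext fun x => Prod.ext
    (by
      show c (σ * τ) + D.tw k 0 ((V.decompositionSubgroup ℚ).subtype (σ * τ)) x.1 =
        c σ + D.tw k 0 ((V.decompositionSubgroup ℚ).subtype σ) (c τ + D.tw k 0 ((V.decompositionSubgroup ℚ).subtype τ) x.1)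
      rw [hc.2.2, map_mul, P1.Primes.tw_mul, map_add, add_assoc])
    (by simp [mul_assoc])

theorem affHom_zero (τ : ↥(V.decompositionSubgroup ℚ)) :
    affHom hc τ (0, 1) = (c τ, D.rb ((V.decompositionSubgroup ℚ).subtype τ)) :=
  Prod.ext (show c τ + D.tw k 0 ((V.decompositionSubgroup ℚ).subtype τ) 0 = c τ by simp) (mul_one _)

theorem affHom_apply (τ : ↥(V.decompositionSubgroup ℚ)) (x : M2 k × GL (Fin 2) (ZMod p)) :
    affHom hc τ x = (c τ + D.tw k 0 ((V.decompositionSubgroup ℚ).subtype τ) x.1, D.rb ((V.decompositionSubgroup ℚ).subtype τ) * x.2) := rfl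

theorem affHom_levC : LevC (V.decompositionSubgroup ℚ).subtype (affHom hc) := by
  obtain ⟨F, hF, h⟩ := hc.1
  obtain ⟨F', hF', h'⟩ := D.level
  haveI := hF
  haveI := hF'
  refine ⟨F ⊔ F', inferInstance, fun g s hs => ?_⟩
  have h1 : D.rb ((V.decompositionSubgroup ℚ).subtype s) = 1 := h' _ ((IntermediateField.mem_fixingSubgroup_iff F' _).1
    (IntermediateField.fixingSubgroup_antitone le_sup_right hs))
  refine Equiv.ext fun x => ?_
  rw [affHom_apply, affHom_apply, h g s (IntermediateField.fixingSubgroup_antitone le_sup_left hs),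
    map_mul, P1.Primes.tw_mul, P1.Primes.tw_of_rb D k 0 h1, map_mul, h1, mul_one]

include hc in
theorem coc_pow_of_rb {g : ↥(V.decompositionSubgroup ℚ)} (hg : D.rb ((V.decompositionSubgroup ℚ).subtype g) = 1) (n : ℕ) :
    c (g ^ n) = n • c g := by
  induction n with
  | zero => simp [P1.Primes.coc_one D k hc]
  | succ n ih =>
    rw [pow_succ, hc.2.2, ih, P1.Primes.tw_of_rb D k 0 (by rw [map_pow, map_pow, hg, one_pow]),
      add_smul, one_smul]

variable [Finite k] (T : TameGen p l V)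
  (hI : ∀ τ : ↥(V.decompositionSubgroup ℚ), (τ : GG) ∈ V.inertiaSubgroupIn ℚ →
    ∃ a : ℕ, D.rb ((V.decompositionSubgroup ℚ).subtype τ) ^ p ^ a = 1)

include hI hc

theorem affHom_gen :
    (∀ τ : ↥(V.decompositionSubgroup ℚ), (τ : GG) ∈ V.inertiaSubgroupIn ℚ →
      affHom hc τ ∈ Subgroup.zpowers (affHom hc T.σ)) ∧
    (∀ τ, affHom hc τ ∈ Subgroup.closure {affHom hc T.σ, affHom hc T.φ}) ∧
    affHom hc T.φ * affHom hc T.σ * (affHom hc T.φ)⁻¹ = affHom hc T.σ ^ l := by
  classical
  refine T.gen (affHom hc) (affHom_levC hc) fun τ hτ => ?_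
  obtain ⟨a, ha⟩ := hI τ hτ
  refine ⟨a + 1, ?_⟩
  rw [← map_pow]
  have hg : D.rb ((V.decompositionSubgroup ℚ).subtype (τ ^ p ^ a)) = 1 := by rw [map_pow, map_pow, ha]
  have h1 : D.rb ((V.decompositionSubgroup ℚ).subtype (τ ^ p ^ (a + 1))) = 1 := by
    rw [pow_succ, pow_mul, map_pow, map_pow, hg, one_pow]
  have h2 : c (τ ^ p ^ (a + 1)) = 0 := by
    rw [pow_succ, pow_mul, coc_pow_of_rb hc hg, ← Nat.cast_smul_eq_nsmul k,
      ← map_natCast (algebraMap (ZMod p) k), ZMod.natCast_self, map_zero, zero_smul]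
  refine Equiv.ext fun x => ?_
  rw [affHom_apply, h2, h1, P1.Primes.tw_of_rb D k 0 h1, zero_add, one_mul]
  rfl

/-- A cocycle vanishing at the two generators vanishes. -/
theorem eq_zero_of_gen (hσ : c T.σ = 0) (hφ : c T.φ = 0) : c = 0 := by
  obtain ⟨-, hcl, -⟩ := affHom_gen hc T hI
  funext τ
  let P : Equiv.Perm (M2 k × GL (Fin 2) (ZMod p)) → Prop := fun π =>
    ∀ g, (π (0, g)).1 = 0 ∧ (π⁻¹ (0, g)).1 = 0
  have hgen : ∀ s : ↥(V.decompositionSubgroup ℚ), c s = 0 → P (affHom hc s) := by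
    intro s hs g
    constructor
    · rw [affHom_apply, hs, map_zero, add_zero]
    · rw [← map_inv, affHom_apply, map_zero, add_zero]
      show c s⁻¹ = 0
      have h := P1.Primes.coc_inv D k hc s⁻¹
      rw [inv_inv, hs, map_zero, eq_comm, neg_eq_zero] at h
      exact h
  have key : P (affHom hc τ) := by
    refine Subgroup.closure_induction (p := fun π _ => P π) ?_ ?_ ?_ ?_ (hcl τ)
    case refine_1 =>
      intro π hπ
      rcases hπ with rfl | rfl
      exacts [hgen _ hσ, hgen _ hφ]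
    case refine_2 => intro g; simp
    case refine_3 =>
      intro π ρ _ _ h h' g
      constructor
      · have e : ρ (0, g) = (0, (ρ (0, g)).2) := Prod.ext (h' g).1 rfl
        rw [Equiv.Perm.mul_apply, e]
        exact (h _).1
      · have e : π⁻¹ (0, g) = (0, (π⁻¹ (0, g)).2) := Prod.ext (h g).2 rfl
        rw [mul_inv_rev, Equiv.Perm.mul_apply, e]
        exact (h' _).2
    case refine_4 => intro π _ h g; rw [inv_inv]; exact ⟨(h g).2, (h g).1⟩
  have := (key 1).1
  rwa [affHom_zero] at this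

theorem rb_inertia_one (h : D.rb ((V.decompositionSubgroup ℚ).subtype T.σ) = 1) (τ : ↥(V.decompositionSubgroup ℚ))
    (hτ : (τ : GG) ∈ V.inertiaSubgroupIn ℚ) : D.rb ((V.decompositionSubgroup ℚ).subtype τ) = 1 := by
  obtain ⟨hz, -, -⟩ := affHom_gen hc T hI
  obtain ⟨n, hn⟩ := hz τ hτ
  have hn' : affHom hc (T.σ ^ n) = affHom hc τ := by rw [map_zpow]; exact hn
  have := congrArg Prod.snd ((affHom_zero hc _).symm.trans
    ((DFunLike.congr_fun hn' (0, 1)).trans (affHom_zero hc τ)))
  exact this.symm.trans (by rw [map_zpow, map_zpow, h, one_zpow])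

theorem frob_rel :
    D.rb ((V.decompositionSubgroup ℚ).subtype (T.φ * T.σ * T.φ⁻¹)) = D.rb ((V.decompositionSubgroup ℚ).subtype T.σ) ^ l ∧ c (T.φ * T.σ * T.φ⁻¹) = c (T.σ ^ l) := by
  obtain ⟨-, -, hr⟩ := affHom_gen hc T hI
  rw [← map_inv, ← map_mul, ← map_mul, ← map_pow] at hr
  have := (affHom_zero hc _).symm.trans ((DFunLike.congr_fun hr (0, 1)).trans (affHom_zero hc _))
  exact ⟨(congrArg Prod.snd this).trans (by rw [map_pow, map_pow]), congrArg Prod.fst this⟩

end Gen

/-! ### The local spaces -/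

/-- Cocycles vanishing on inertia. -/
def unrLoc : Submodule k (↥(V.decompositionSubgroup ℚ) → M2 k) :=
  D.cocycles k 0 (V.decompositionSubgroup ℚ).subtype ⊓
    ⨅ τ ∈ {τ : ↥(V.decompositionSubgroup ℚ) | (τ : GG) ∈ V.inertiaSubgroupIn ℚ},
      LinearMap.ker (LinearMap.proj (R := k) (φ := fun _ => M2 k) τ)

theorem mem_unrLoc {c : ↥(V.decompositionSubgroup ℚ) → M2 k} :
    c ∈ unrLoc D k V ↔ c ∈ D.cocycles k 0 (V.decompositionSubgroup ℚ).subtype ∧
      ∀ τ : ↥(V.decompositionSubgroup ℚ), (τ : GG) ∈ V.inertiaSubgroupIn ℚ → c τ = 0 := by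
  simp [unrLoc, Submodule.mem_iInf]

/-- The derivative of `(M - 1)²` at a lift. -/
def sqDer (g : GG) : M2 k →ₗ[k] M2 k :=
  LinearMap.mulLeft k ((D.rbk k g : M2 k) - 1) ∘ₗ LinearMap.mulRight k (D.rbk k g : M2 k) +
    LinearMap.mulRight k ((D.rbk k g : M2 k) - 1) ∘ₗ LinearMap.mulRight k (D.rbk k g : M2 k)

/-- Cocycles whose lift is unipotent on inertia. -/
def uniLoc : Submodule k (↥(V.decompositionSubgroup ℚ) → M2 k) :=
  D.cocycles k 0 (V.decompositionSubgroup ℚ).subtype ⊓
    ⨅ τ ∈ {τ : ↥(V.decompositionSubgroup ℚ) | (τ : GG) ∈ V.inertiaSubgroupIn ℚ},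
      LinearMap.ker (sqDer D k τ ∘ₗ LinearMap.proj (R := k) (φ := fun _ => M2 k) τ)

theorem mem_uniLoc {c : ↥(V.decompositionSubgroup ℚ) → M2 k} :
    c ∈ uniLoc D k V ↔ c ∈ D.cocycles k 0 (V.decompositionSubgroup ℚ).subtype ∧
      ∀ τ : ↥(V.decompositionSubgroup ℚ), (τ : GG) ∈ V.inertiaSubgroupIn ℚ →
        sqDer D k τ (c τ) = 0 := by
  simp [uniLoc, Submodule.mem_iInf]

variable [Finite k]

theorem unrLoc_bound (T : TameGen p l V)
    (hI : ∀ τ ∈ V.inertiaSubgroupIn ℚ, D.rb τ = 1) :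
    D.cobs k 0 (V.decompositionSubgroup ℚ).subtype ≤ unrLoc D k V ∧ FiniteDimensional k ↥(unrLoc D k V) ∧
      Module.finrank k ↥(unrLoc D k V) ≤ 3 := by
  refine ⟨fun c hc => (mem_unrLoc D k V).2 ⟨P1.Primes.cobs_le_cocycles D k hc, fun τ hτ => ?_⟩, ?_⟩
  · obtain ⟨m, -, hm⟩ := (P1.Primes.mem_cobs_iff D k).1 hc
    rw [hm, P1.Primes.tw_of_rb D k 0 (σ := (V.decompositionSubgroup ℚ).subtype τ) (hI _ hτ), sub_self]
  · have h := bound_of_map k (unrLoc D k V) (LinearMap.proj T.σ) (LinearMap.proj T.φ) ⊥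
      (Datum.trZero k) (fun z hz => ((mem_unrLoc D k V).1 hz).2 _ T.σ_mem)
      (fun z hz _ => ((mem_unrLoc D k V).1 hz).1.2.1 _)
      fun z hz h1 h2 => eq_zero_of_gen ((mem_unrLoc D k V).1 hz).1 T
        (fun τ hτ => ⟨0, by rw [pow_zero, pow_one]; exact hI _ hτ⟩) h1 h2
    rw [finrank_bot, zero_add, finrank_trZero] at h
    exact h

/-- Cocycles at a prime of `T` trivial at the two generators. -/
theorem eq_zero_at_T (T : TameGen p l V) (hI : ∀ τ ∈ V.inertiaSubgroupIn ℚ, D.rb τ = 1)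
    {c : ↥(V.decompositionSubgroup ℚ) → M2 k} (hc : c ∈ D.cocycles k 0 (V.decompositionSubgroup ℚ).subtype) (h1 : c T.σ = 0)
    (h2 : c T.φ = 0) : c = 0 :=
  eq_zero_of_gen hc T (fun τ hτ => ⟨0, by rw [pow_zero, pow_one]; exact hI _ hτ⟩) h1 h2

/-- No coboundaries at a prime of `T`. -/
theorem cobs_eq_bot_at_T (T : TameGen p l V) (hI : ∀ τ ∈ V.inertiaSubgroupIn ℚ, D.rb τ = 1)
    (hφ : ∃ a : ZMod p, (D.rb (T.φ : GG) : M2 (ZMod p)) = a • 1) : D.cobs k 0 (V.decompositionSubgroup ℚ).subtype = ⊥ := by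
  rw [eq_bot_iff]
  intro c hc
  rw [Submodule.mem_bot]
  obtain ⟨m, hm, hcm⟩ := (P1.Primes.mem_cobs_iff D k).1 hc
  refine eq_zero_at_T D k V T hI (P1.Primes.cobs_le_cocycles D k hc) ?_ ?_
  · rw [hcm, P1.Primes.tw_of_rb D k 0 (σ := (V.decompositionSubgroup ℚ).subtype T.σ) (hI _ T.σ_mem), sub_self]
  · obtain ⟨a, ha⟩ := hφ
    rw [hcm, sub_eq_zero, P1.Primes.tw_eq, P1.Primes.twG_apply, pow_zero, map_one, one_smul]
    have h1 : (Matrix.GeneralLinearGroup.map (algebraMap (ZMod p) k) (D.rb ((V.decompositionSubgroup ℚ).subtype T.φ)) : M2 k) =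
        algebraMap (ZMod p) k a • 1 := by
      ext i j
      show algebraMap (ZMod p) k ((D.rb (T.φ : GG) : M2 (ZMod p)) i j) = _
      rw [ha]
      by_cases hij : i = j <;> simp [Matrix.one_apply, hij]
    have h2 : (Matrix.GeneralLinearGroup.map (algebraMap (ZMod p) k) (D.rb ((V.decompositionSubgroup ℚ).subtype T.φ)) : M2 k) *
        (Matrix.GeneralLinearGroup.map (algebraMap (ZMod p) k) (D.rb ((V.decompositionSubgroup ℚ).subtype T.φ))⁻¹ : M2 k) = 1 := by
      rw [← Units.val_mul, ← map_mul, mul_inv_cancel, map_one, Units.val_one]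
    rw [← mul_assoc, h1, smul_mul_assoc, one_mul, smul_mul_assoc]
    rw [h1, smul_mul_assoc, one_mul] at h2
    rw [← mul_smul_comm, h2, mul_one]

section Unipotent

variable {N c : M2 k}

include D in
theorem exists_eq_smul_of_commute (hN : N.trace = 0) (hN2 : N * N = 0) (hN0 : N ≠ 0)
    (hc : c.trace = 0) (h : c * N = N * c) : ∃ a : k, c = a • N := by
  rw [Matrix.trace_fin_two] at hN hc
  have hn : N 1 1 = -N 0 0 := eq_neg_of_add_eq_zero_right hN
  have hc' : c 1 1 = -c 0 0 := eq_neg_of_add_eq_zero_right hc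
  have e00 := congrFun (congrFun h 0) 0
  have e01 := congrFun (congrFun h 0) 1
  have e10 := congrFun (congrFun h 1) 0
  have s00 := congrFun (congrFun hN2 0) 0
  simp only [Matrix.mul_apply, Fin.sum_univ_two, hn, hc', Matrix.zero_apply] at e00 e01 e10 s00
  have htwo : ∀ {x : k}, 2 * x = 0 → (2 : k) ≠ 0 → x = 0 := fun hx h2 =>
    (mul_eq_zero.1 hx).resolve_left h2
  have h2 : (2 : k) ≠ 0 := fun h0 => by
    refine P1.Primes.two_ne_zero' D.p_gt ((algebraMap (ZMod p) k).injective ?_)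
    rw [map_ofNat, h0, map_zero]
  by_cases hy : N 0 1 = 0
  · by_cases hz : N 1 0 = 0
    · refine absurd ?_ hN0
      have hx : N 0 0 = 0 := mul_self_eq_zero.1 (by rw [hy, zero_mul, add_zero] at s00; exact s00)
      ext i j
      fin_cases i <;> fin_cases j <;> simp [hn, hx, hy, hz]
    · refine ⟨c 1 0 / N 1 0, ?_⟩
      have q1 := htwo (x := c 1 0 * N 0 0 - N 1 0 * c 0 0) (by linear_combination e10) h2
      have q2 : c 0 1 * N 1 0 - N 0 1 * c 1 0 = 0 := by linear_combination e00
      ext i j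
      fin_cases i <;> fin_cases j <;>
        simp only [Fin.zero_eta, Fin.mk_one, Matrix.smul_apply, smul_eq_mul, hn, hc'] <;>
        field_simp
      · linear_combination -q1
      · linear_combination q2
      · linear_combination q1
  · refine ⟨c 0 1 / N 0 1, ?_⟩
    have q1 := htwo (x := c 0 0 * N 0 1 - N 0 0 * c 0 1) (by linear_combination e01) h2
    have q2 : c 0 1 * N 1 0 - N 0 1 * c 1 0 = 0 := by linear_combination e00
    ext i j
    fin_cases i <;> fin_cases j <;>
      simp only [Fin.zero_eta, Fin.mk_one, Matrix.smul_apply, smul_eq_mul, hn, hc'] <;>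
      field_simp
    · linear_combination q1
    · linear_combination -q2
    · linear_combination -q1

include D in
theorem finrank_orth_le (hN : N.trace = 0) (hN0 : N ≠ 0) :
    Module.finrank k
      ↥(Datum.trZero k ⊓ LinearMap.ker ((Matrix.traceLinearMap (Fin 2) k k) ∘ₗ LinearMap.mulLeft k N))
      ≤ 2 := by
  have hlt : Datum.trZero k ⊓
      LinearMap.ker ((Matrix.traceLinearMap (Fin 2) k k) ∘ₗ LinearMap.mulLeft k N) <
        Datum.trZero k := by
    refine lt_of_le_of_ne inf_le_left fun he => hN0 ?_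
    have key : ∀ m : M2 k, m.trace = 0 → (N * m).trace = 0 := fun m hm => by
      have : m ∈ Datum.trZero k := hm
      rw [← he] at this
      exact this.2
    rw [Matrix.trace_fin_two] at hN
    have a := key !![0, 1; 0, 0] (by simp [Matrix.trace_fin_two])
    have b := key !![0, 0; 1, 0] (by simp [Matrix.trace_fin_two])
    have e := key !![1, 0; 0, -1] (by simp [Matrix.trace_fin_two])
    simp [Matrix.trace_fin_two, Matrix.mul_apply, Fin.sum_univ_two] at a b e
    have h00 : N 0 0 = 0 := by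
      have h2 : (2 : k) ≠ 0 := fun h0 => by
        refine P1.Primes.two_ne_zero' D.p_gt ((algebraMap (ZMod p) k).injective ?_)
        rw [map_ofNat, h0, map_zero]
      exact (mul_eq_zero.1 (show (2 : k) * N 0 0 = 0 by linear_combination e + hN)).resolve_left h2
    ext i j
    fin_cases i <;> fin_cases j <;> simp [a, b, h00]
    linear_combination hN - h00
  have := Submodule.finrank_lt_finrank_of_lt hlt
  rw [finrank_trZero] at this
  omega

end Unipotent

theorem uniLoc_bound (hl : l.Prime) (hlp : l ≠ p) (T : TameGen p l V)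
    (hu : ∀ τ ∈ V.inertiaSubgroupIn ℚ, ((D.rbk k τ : M2 k) - 1) ^ 2 = 0)
    (hr : ∃ τ ∈ V.inertiaSubgroupIn ℚ, D.rb τ ≠ 1) :
    D.cobs k 0 (V.decompositionSubgroup ℚ).subtype ≤ uniLoc D k V ∧ FiniteDimensional k ↥(uniLoc D k V) ∧
      Module.finrank k ↥(uniLoc D k V) ≤ 3 := by
  haveI : CharP k p := charP_of_injective_algebraMap (algebraMap (ZMod p) k).injective p
  have hinj : Function.Injective (Matrix.GeneralLinearGroup.map (algebraMap (ZMod p) k) :
      GL (Fin 2) (ZMod p) →* GL (Fin 2) k) := fun a b h => Units.ext (Matrix.ext fun i j =>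
    (algebraMap (ZMod p) k).injective (congrArg (fun g : GL (Fin 2) k => (g : M2 k) i j) h))
  have hpow : ∀ τ : GG, ((D.rbk k τ : M2 k) - 1) ^ 2 = 0 → ∀ n : ℕ,
      ((D.rbk k τ ^ n : GL (Fin 2) k) : M2 k) = 1 + (n : k) • ((D.rbk k τ : M2 k) - 1) := by
    intro τ hτ n
    induction n with
    | zero => simp
    | succ n ih =>
      rw [pow_succ, Units.val_mul, ih, Nat.cast_succ, add_smul, one_smul]
      rw [sq] at hτ
      set N := (D.rbk k τ : M2 k) - 1 with hN
      rw [show (D.rbk k τ : M2 k) = 1 + N by rw [hN]; abel, mul_add, mul_one, add_mul, one_mul,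
        smul_mul_assoc, hτ, smul_zero, add_zero, add_assoc]
  have hI : ∀ τ : ↥(V.decompositionSubgroup ℚ), (τ : GG) ∈ V.inertiaSubgroupIn ℚ →
      ∃ a : ℕ, D.rb ((V.decompositionSubgroup ℚ).subtype τ) ^ p ^ a = 1 := fun τ hτ => ⟨1, hinj (by
    rw [pow_one, map_pow, map_one]
    refine Units.ext ?_
    show ((D.rbk k (τ : GG) ^ p : GL (Fin 2) k) : M2 k) = 1
    rw [hpow _ (hu _ hτ), CharP.cast_eq_zero, zero_smul, add_zero])⟩
  refine ⟨fun c hc => (mem_uniLoc D k V).2 ⟨P1.Primes.cobs_le_cocycles D k hc, fun τ hτ => ?_⟩, ?_⟩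
  · obtain ⟨m, -, hm⟩ := (P1.Primes.mem_cobs_iff D k).1 hc
    rw [hm, P1.Primes.tw_eq, P1.Primes.twG_apply, pow_zero, map_one, one_smul]
    change sqDer D k (τ : GG) ((D.rbk k τ : M2 k) * (m * (Matrix.GeneralLinearGroup.map
      (algebraMap (ZMod p) k) (D.rb (τ : GG))⁻¹ : M2 k)) - m) = 0
    rw [map_inv]
    change sqDer D k (τ : GG) ((D.rbk k τ : M2 k) * (m * (((D.rbk k τ)⁻¹ : GL (Fin 2) k) : M2 k))
      - m) = 0
    have h1 : (((D.rbk k τ)⁻¹ : GL (Fin 2) k) : M2 k) * (D.rbk k τ : M2 k) = 1 := by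
      rw [← Units.val_mul, inv_mul_cancel, Units.val_one]
    have h2 := hu _ hτ
    rw [sq] at h2
    simp only [sqDer, LinearMap.add_apply, LinearMap.comp_apply, LinearMap.mulLeft_apply,
      LinearMap.mulRight_apply]
    have h3 : ((D.rbk k τ : M2 k) * (m * (((D.rbk k τ)⁻¹ : GL (Fin 2) k) : M2 k)) - m) *
        (D.rbk k τ : M2 k) = (D.rbk k τ : M2 k) * m - m * (D.rbk k τ : M2 k) := by
      rw [sub_mul, mul_assoc, mul_assoc m, h1, mul_one]
    rw [h3]
    generalize (D.rbk k τ : M2 k) = r at h2 ⊢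
    calc (r - 1) * (r * m - m * r) + (r * m - m * r) * (r - 1)
        = (r - 1) * (r - 1) * m - m * ((r - 1) * (r - 1)) := by noncomm_ring
      _ = 0 := by rw [h2, zero_mul, mul_zero, sub_zero]
  set N : M2 k := (D.rbk k (T.σ : GG) : M2 k) - 1 with hNdef
  have hN2 : N * N = 0 := by rw [← sq]; exact hu _ T.σ_mem
  have hNtr : N.trace = 0 := by
    have a := congrFun (congrFun hN2 0) 0
    have b := congrFun (congrFun hN2 0) 1
    have e := congrFun (congrFun hN2 1) 1
    simp [Matrix.mul_apply, Fin.sum_univ_two] at a b e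
    rw [Matrix.trace_fin_two]
    by_cases hy : N 0 1 = 0
    · rw [hy] at a e
      simp at a e
      rw [a, e, add_zero]
    · exact (mul_eq_zero.1 (show (N 0 0 + N 1 1) * N 0 1 = 0 by linear_combination b)).resolve_right
        hy
  have hN0 : N ≠ 0 := by
    intro h
    obtain ⟨τ, hτ, hne⟩ := hr
    refine hne (rb_inertia_one (c := (0 : ↥(V.decompositionSubgroup ℚ) → M2 k))
      (zero_mem _) T hI (hinj ?_)
      ⟨τ, Places.inertia_le_decomposition V hτ⟩ hτ)
    rw [map_one]
    exact Units.ext (sub_eq_zero.1 h)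
  have h := bound_of_map k (uniLoc D k V) (LinearMap.proj T.σ) (LinearMap.proj T.φ)
    (Datum.trZero k ⊓ LinearMap.ker ((Matrix.traceLinearMap (Fin 2) k k) ∘ₗ LinearMap.mulLeft k N))
    (k ∙ N) (fun z hz => ?_) (fun z hz h0 => ?_)
    fun z hz h1 h2 => eq_zero_of_gen ((mem_uniLoc D k V).1 hz).1 T hI h1 h2
  · refine ⟨h.1, h.2.trans ?_⟩
    rw [finrank_span_singleton hN0]
    exact Nat.succ_le_succ (finrank_orth_le D k hNtr hN0)
  · obtain ⟨hzc, hzs⟩ := (mem_uniLoc D k V).1 hz
    refine ⟨hzc.2.1 _, ?_⟩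
    have h := hzs _ T.σ_mem
    simp only [sqDer, LinearMap.add_apply, LinearMap.comp_apply, LinearMap.mulLeft_apply,
      LinearMap.mulRight_apply, ← hNdef] at h
    rw [show (D.rbk k (T.σ : GG) : M2 k) = 1 + N by rw [hNdef]; abel] at h
    set a := z T.σ
    change (N * a).trace = 0
    have h1 : N * a * N = 0 := by
      have := congrArg (N * ·) h
      simp only [mul_zero] at this
      calc N * a * N = N * (N * (a * (1 + N)) + a * (1 + N) * N) := by
            rw [mul_add N, ← mul_assoc N N, hN2, zero_mul, zero_add, mul_assoc a, add_mul,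
              one_mul, hN2, add_zero, mul_assoc]
        _ = 0 := this
    have h2 : N * a + a * N = 0 := by
      rw [← h, mul_add a, mul_one, mul_add N, ← mul_assoc N a N, h1, add_zero, add_mul,
        mul_assoc a N, hN2, mul_zero, add_zero]
    have h3 := congrArg Matrix.trace h2
    rw [Matrix.trace_add, Matrix.trace_mul_comm a, Matrix.trace_zero, ← two_mul] at h3
    refine (mul_eq_zero.1 h3).resolve_left fun h0 => ?_
    refine P1.Primes.two_ne_zero' D.p_gt ((algebraMap (ZMod p) k).injective ?_)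
    rw [map_ofNat, h0, map_zero]
  · obtain ⟨hzc, -⟩ := (mem_uniLoc D k V).1 hz
    obtain ⟨e1, e2⟩ := frob_rel hzc T hI
    have hz0 : ∀ n : ℕ, z (T.σ ^ n) = 0 := fun n => by
      induction n with
      | zero => rw [pow_zero]; exact P1.Primes.coc_one D k hzc
      | succ n ih => rw [pow_succ, hzc.2.2, ih, show z T.σ = 0 from h0, map_zero, add_zero]
    rw [P1.Primes.coc_conj D k hzc, hz0, show z T.σ = 0 from h0, map_zero, add_zero,
      sub_eq_zero] at e2
    set e := z T.φ with he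
    rw [P1.Primes.tw_eq, P1.Primes.twG_apply, pow_zero, map_one, one_smul, e1, map_inv,
      map_pow] at e2
    have hg := hpow _ (hu _ T.σ_mem) l
    rw [← hNdef] at hg
    set u : GL (Fin 2) k := D.rbk k (T.σ : GG) ^ l with hudef
    change e = (u : M2 k) * (e * ((u⁻¹ : GL (Fin 2) k) : M2 k)) at e2
    have e3 : e * (u : M2 k) = (u : M2 k) * e := by
      conv_lhs => rw [e2]
      rw [mul_assoc, mul_assoc e, ← Units.val_mul, inv_mul_cancel, Units.val_one, mul_one]
    rw [hg, mul_add, mul_one, add_mul, one_mul, add_right_inj, mul_smul_comm, smul_mul_assoc] at e3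
    have hl0 : (l : k) ≠ 0 := fun h =>
      hlp ((Nat.prime_dvd_prime_iff_eq Fact.out hl).1 ((CharP.cast_eq_zero_iff k p l).1 h)).symm
    obtain ⟨a, ha⟩ := exists_eq_smul_of_commute D k hNtr hN2 hN0 (hzc.2.1 _)
      (smul_right_injective (M2 k) hl0 e3)
    exact Submodule.mem_span_singleton.2 ⟨a, ha.symm⟩

end FLTAgent.Lowering.P6.Tangent
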