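import Fermat.Agent.Lowering.P6.Tangent.Cocycle

/-!
# Modules with the quadratic relation are modules over all matrices

An action of the Galois group satisfying the Cayley-Hamilton relation of a residually spanning
representation factors through the matrix algebra.
-/

set_option autoImplicit false
set_option linter.unusedSectionVars false
set_option linter.style.haveILetI false

noncomputable section

open IsLocalRing FLTAgent.Deformation

namespace FLTAgent.Lowering.P6.Tangent

local notation "GG" => (AlgebraicClosure ℚ ≃ₐ[ℚ] AlgebraicClosure ℚ)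
local notation "M2" => Matrix (Fin 2) (Fin 2)

section Quad

variable {A : Type} [CommRing A] {B' : Type} [Ring B'] [Algebra A B'] {G : Type} [Group G]

/-- The Cayley-Hamilton relation for an action. -/
structure Quad (B : G →* B') (t D : G → A) : Prop where
  rel : ∀ g, B g * B g + D g • (1 : B') = t g • B g
  det_mul : ∀ g h, D (g * h) = D g * D h
  tr_comm : ∀ g h, t (g * h) = t (h * g)

namespace Quad

variable {B : G →* B'} {t D : G → A} (hQ : Quad B t D)
include hQ

theorem smul_inv (g : G) : D g • B g⁻¹ = t g • (1 : B') - B g := by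
  have h := congrArg (· * B g⁻¹) (hQ.rel g)
  have e : B g * B g⁻¹ = 1 := by rw [← map_mul, mul_inv_cancel, map_one]
  simp only [add_mul, smul_mul_assoc, one_mul, mul_assoc, e, mul_one] at h
  rw [← h]
  abel

/-- The polarised relation. -/
theorem polar (g h : G) :
    B g * B h + B h * B g = t g • B h + t h • B g + (t (g * h) - t g * t h) • (1 : B') := by
  have h1 : (D h • B h⁻¹) * (D g • B g⁻¹) = t (g * h) • (1 : B') - B (g * h) := by
    rw [smul_mul_assoc, mul_smul_comm, smul_smul, ← map_mul, ← mul_inv_rev, mul_comm (D h),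
      ← hQ.det_mul, hQ.smul_inv]
  rw [hQ.smul_inv, hQ.smul_inv] at h1
  simp only [sub_mul, mul_sub, smul_mul_assoc, mul_smul_comm, one_mul, mul_one, map_mul] at h1
  have h2 : B g * B h = t (g * h) • (1 : B') -
      (t g • (t h • (1 : B') - B h) - (t h • B g - B h * B g)) := by rw [h1, sub_sub_cancel]
  rw [h2, sub_smul, smul_sub, smul_smul]
  abel

/-- The square of a commutator is a scalar. -/
theorem comm_sq (g h : G) :
    (B g * B h - B h * B g) * (B g * B h - B h * B g) =
      (t (g * h) * t (g * h) - t (g * h * (h * g)) - 2 * D (g * h)) • (1 : B') := by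
  have e1 := hQ.polar (g * h) (h * g)
  have a := hQ.rel (g * h)
  have b := hQ.rel (h * g)
  rw [hQ.tr_comm h g, hQ.det_mul h g, mul_comm (D h), ← hQ.det_mul] at b
  rw [hQ.tr_comm h g] at e1
  simp only [map_mul] at e1 a b
  calc (B g * B h - B h * B g) * (B g * B h - B h * B g)
      = B g * B h * (B g * B h) + B h * B g * (B h * B g) -
        (B g * B h * (B h * B g) + B h * B g * (B g * B h)) := by noncomm_ring
    _ = _ := by
      rw [eq_sub_of_add_eq a, eq_sub_of_add_eq b, e1, sub_smul, sub_smul, sub_smul, two_mul,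
        add_smul]
      abel

/-- The combinations killed by the matrices are killed by the action. -/
theorem comb_eq_zero {m : Type} [Ring m] [Algebra A m] (r : G →* m) (T : m →ₗ[A] A)
    (hT : ∀ g, T (r g) = t g) (h2 : IsUnit (2 : A))
    (hu : ∃ g h : G, IsUnit (t (g * h) * t (g * h) - t (g * h * (h * g)) - 2 * D (g * h)))
    (c : G →₀ A) (hc : Finsupp.linearCombination A (⇑r) c = 0) :
    Finsupp.linearCombination A (⇑B) c = 0 := by
  set X := Finsupp.linearCombination A (⇑B) c with hX
  have hsum1 : (c.sum fun g a => a * t g) = 0 := by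
    have := congrArg T hc
    simp only [map_zero, Finsupp.linearCombination_apply, Finsupp.sum, _root_.map_sum, map_smul, hT,
      smul_eq_mul] at this
    exact this
  have hsum2 : ∀ h, (c.sum fun g a => a * t (g * h)) = 0 := fun h => by
    have := congrArg T (congrArg (· * r h) hc)
    simp only [zero_mul, map_zero, Finsupp.linearCombination_apply, Finsupp.sum,
      Finset.sum_mul, smul_mul_assoc, ← map_mul, _root_.map_sum, map_smul, hT, smul_eq_mul] at this
    exact this
  have hanti : ∀ h, X * B h = t h • X - B h * X := fun h => by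
    rw [eq_sub_iff_add_eq, hX, Finsupp.linearCombination_apply, Finsupp.sum, Finset.sum_mul,
      Finset.mul_sum, ← Finset.sum_add_distrib, Finset.smul_sum]
    rw [Finset.sum_congr rfl fun g _ => by
      rw [smul_mul_assoc, mul_smul_comm, ← smul_add, hQ.polar, smul_add, smul_add, smul_smul,
        smul_smul, smul_smul]]
    rw [Finset.sum_add_distrib, Finset.sum_add_distrib, ← Finset.sum_smul, ← Finset.sum_smul]
    have s1 : ∑ g ∈ c.support, c g * t g = 0 := hsum1
    have s2 : ∑ g ∈ c.support, c g * (t (g * h) - t g * t h) = 0 := by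
      simp only [mul_sub, Finset.sum_sub_distrib, ← mul_assoc, ← Finset.sum_mul, s1, zero_mul,
        sub_zero]
      exact hsum2 h
    rw [s1, s2, zero_smul, zero_smul, zero_add, add_zero]
    exact Finset.sum_congr rfl fun g _ => by rw [smul_smul, mul_comm]
  obtain ⟨g, h, hgh⟩ := hu
  have two : ∀ g h : G, X * B g * B h =
      t g • t h • X - t g • (B h * X) - t h • (B g * X) + B g * (B h * X) := fun g h => by
    rw [hanti, sub_mul, smul_mul_assoc, hanti, mul_assoc, hanti, smul_sub, mul_sub, mul_smul_comm]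
    abel
  have hc1 := two g h
  have hc2 := two h g
  rw [mul_assoc, ← map_mul, hanti, map_mul, mul_assoc] at hc1 hc2
  rw [hQ.tr_comm h g, smul_comm (t h) (t g)] at hc2
  set u := t (g * h)
  have key : (2 : A) • ((B g * B h - B h * B g) * X) = 0 := by
    rw [two_smul, sub_mul, mul_assoc, mul_assoc]
    linear_combination (norm := abel) hc2 - hc1
  have key' := (h2.smul_eq_zero).1 key
  have h4 := congrArg ((B g * B h - B h * B g) * ·) key'
  rw [mul_zero, ← mul_assoc, hQ.comm_sq, smul_mul_assoc, one_mul] at h4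
  exact (hgh.smul_eq_zero).1 h4

end Quad

end Quad

variable {p : ℕ} [Fact p.Prime] {O : Type} [CommRing O] [IsDomain O] [IsDiscreteValuationRing O]
  [Algebra ℤ_[p] O] {R : Residual p O} [Algebra (ZMod p) (ResidueField O)] {X : Aux R.S}
  {L : LevelData X}

theorem quad_matrix {A : Type} [CommRing A] {G : Type} [Group G] (r : G →* GL (Fin 2) A) :
    Quad ((Units.coeHom (M2 A)).comp r) (fun g => trGL (r g)) fun g => detGL (r g) where
  rel g := by
    show (r g : M2 A) * (r g : M2 A) + detGL (r g) • (1 : M2 A) = trGL (r g) • (r g : M2 A)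
    ext i j
    fin_cases i <;> fin_cases j <;>
      simp [Matrix.mul_apply, Fin.sum_univ_two, Matrix.det_fin_two, Matrix.trace_fin_two] <;> ring
  det_mul g h := by simp only [detGL, map_mul, Units.val_mul, Matrix.det_mul]
  tr_comm g h := by simp only [trGL, map_mul, Units.val_mul]; exact Matrix.trace_mul_comm _ _

/-- A matrix with trace zero squares to minus its determinant. -/
theorem sq_eq_neg_det {k : Type} [CommRing k] (C : M2 k) (h : C.trace = 0) :
    C * C = (-C.det) • (1 : M2 k) := by
  rw [Matrix.trace_fin_two] at h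
  have h1 : C 1 1 = -C 0 0 := eq_neg_of_add_eq_zero_right h
  ext i j
  fin_cases i <;> fin_cases j <;>
    simp [Matrix.mul_apply, Fin.sum_univ_two, Matrix.det_fin_two, h1] <;> ring

theorem exists_commutator_unit (Lf : Lift R L) (hk : Compat R) :
    ∃ g h : GG, IsUnit (trGL (Lf.ρ (g * h)) * trGL (Lf.ρ (g * h)) -
      trGL (Lf.ρ (g * h * (h * g))) - 2 * detGL (Lf.ρ (g * h))) := by
  obtain ⟨g, h, hgh⟩ := R.S.rb_big
  refine ⟨g, h, ?_⟩
  rw [← IsLocalRing.notMem_maximalIdeal, ← red_eq_zero_iff L.red]
  let ψ : M2 L.R →+* M2 (ResidueField O) := L.red.toRingHom.mapMatrix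
  have hψ : ∀ σ, ψ (Lf.ρ σ : M2 L.R) = (R.S.rb σ : M2 (ResidueField O)) :=
    fun σ => Matrix.ext fun i j => Lf.red_eq σ i j
  have htr : ∀ σ, L.red (trGL (Lf.ρ σ)) = trGL (R.S.rb σ) := fun σ => by
    rw [trGL, trGL, ← hψ, Matrix.trace_fin_two, Matrix.trace_fin_two, map_add]
    rfl
  have hdet : ∀ σ, L.red (detGL (Lf.ρ σ)) = detGL (R.S.rb σ) := fun σ => by
    rw [detGL, detGL, ← hψ]
    exact (L.red.toRingHom.map_det _)
  rw [map_sub, map_sub, map_mul L.red, map_mul L.red, map_ofNat, htr, htr, hdet]
  intro h0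
  have hsq := (quad_matrix R.S.rb).comm_sq g h
  rw [h0, zero_smul] at hsq
  set C := ((Units.coeHom (M2 (ResidueField O))).comp R.S.rb) g *
    ((Units.coeHom (M2 (ResidueField O))).comp R.S.rb) h -
    ((Units.coeHom (M2 (ResidueField O))).comp R.S.rb) h *
    ((Units.coeHom (M2 (ResidueField O))).comp R.S.rb) g with hC
  have hC0 : C.det = 0 := by
    have := congrArg Matrix.det hsq
    rw [Matrix.det_mul, Matrix.det_zero] at this
    exact mul_self_eq_zero.1 this
  set K : M2 (ResidueField O) := (R.S.rb (g * h * g⁻¹ * h⁻¹) : M2 (ResidueField O))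
  have hfac : C = (K - 1) * (R.S.rb (h * g) : M2 (ResidueField O)) := by
    rw [sub_mul, one_mul, ← Units.val_mul, ← map_mul,
      show g * h * g⁻¹ * h⁻¹ * (h * g) = g * h by group, hC]
    simp [map_mul]
  rw [hfac, Matrix.det_mul, mul_eq_zero] at hC0
  have hne : (R.S.rb (h * g) : M2 (ResidueField O)).det ≠ 0 :=
    (Matrix.isUnit_iff_isUnit_det _).1 (R.S.rb (h * g)).isUnit |>.ne_zero
  have hK : K.det = 1 := by
    show ((Matrix.GeneralLinearGroup.det.comp R.S.rb) (g * h * g⁻¹ * h⁻¹) : (ResidueField O)ˣ).1 = 1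
    rw [map_mul, map_mul, map_mul, map_inv, map_inv, mul_comm (_ : (ResidueField O)ˣ) ((Matrix.GeneralLinearGroup.det.comp R.S.rb) h),
      mul_inv_cancel_right, mul_inv_cancel, Units.val_one]
  have h1 := hC0.resolve_right hne
  rw [Matrix.det_fin_two] at h1 hK
  simp only [Matrix.sub_apply, Matrix.one_apply_eq,
    Matrix.one_apply_ne (show (0 : Fin 2) ≠ 1 by decide),
    Matrix.one_apply_ne (show (1 : Fin 2) ≠ 0 by decide), sub_zero] at h1
  refine hgh ?_
  show K.trace = 2
  rw [Matrix.trace_fin_two]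
  linear_combination -h1 + hK

variable {W : Type} [AddCommGroup W] [Module L.R W]

/-- The action extends to all matrices. -/
theorem exists_matrix_action (Lf : Lift R L) (hk : Compat R) (actW : GG →* Module.End L.R W)
    (hrel : ∀ (σ : GG) (w : W),
      actW σ (actW σ w) + detGL (L.ρ σ) • w = trGL (L.ρ σ) • actW σ w) :
    ∃ Ψ : M2 L.R →ₗ[L.R] Module.End L.R W, (∀ σ, Ψ (Lf.ρ σ : M2 L.R) = actW σ) ∧ Ψ 1 = 1 ∧
      ∀ x y, Ψ (x * y) = Ψ x * Ψ y := by
  let r : GG →* M2 L.R := (Units.coeHom (M2 L.R)).comp Lf.ρ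
  have hQ : Quad actW (fun g => trGL (Lf.ρ g)) fun g => detGL (Lf.ρ g) := by
    refine ⟨fun g => LinearMap.ext fun w => ?_, (quad_matrix Lf.ρ).det_mul,
      (quad_matrix Lf.ρ).tr_comm⟩
    simpa [Lf.tr_eq, Lf.det_eq] using hrel g w
  obtain ⟨g₀, h₀, hu⟩ := exists_commutator_unit Lf hk
  let Lr : (GG →₀ L.R) →ₗ[L.R] M2 L.R := Finsupp.linearCombination L.R r
  let LB : (GG →₀ L.R) →ₗ[L.R] Module.End L.R W := Finsupp.linearCombination L.R actW
  have hker : LinearMap.ker Lr ≤ LinearMap.ker LB := fun c hc =>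
    hQ.comb_eq_zero r (Matrix.traceLinearMap (Fin 2) L.R L.R) (fun g => rfl) (two_isUnit R L)
      ⟨g₀, h₀, hu⟩ c hc
  have hsurj : Function.Surjective Lr := by
    rw [← LinearMap.range_eq_top, Finsupp.range_linearCombination]
    exact Lf.span_eq_top
  let Ψ : M2 L.R →ₗ[L.R] Module.End L.R W :=
    ((LinearMap.ker Lr).liftQ LB hker).comp (Lr.quotKerEquivOfSurjective hsurj).symm.toLinearMap
  have hΨ : ∀ g, Ψ (r g) = actW g := fun g => by
    have h1 : (Lr.quotKerEquivOfSurjective hsurj).symm (r g) =
        Submodule.Quotient.mk (Finsupp.single g 1) := by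
      rw [LinearEquiv.symm_apply_eq]
      show r g = Lr (Finsupp.single g 1)
      simp [Lr]
    simp only [Ψ, LinearMap.comp_apply, LinearEquiv.coe_coe, h1]
    show LB (Finsupp.single g 1) = _
    simp [LB]
  refine ⟨Ψ, hΨ, by simpa using hΨ 1, fun x y => ?_⟩
  have hx : x ∈ Submodule.span L.R (Set.range r) := Lf.span_eq_top ▸ Submodule.mem_top
  induction hx using Submodule.span_induction with
  | mem _ hx =>
    obtain ⟨g, rfl⟩ := hx
    have hy : y ∈ Submodule.span L.R (Set.range r) := Lf.span_eq_top ▸ Submodule.mem_top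
    induction hy using Submodule.span_induction with
    | mem _ hy => obtain ⟨h, rfl⟩ := hy; rw [← map_mul, hΨ, hΨ, hΨ, map_mul]
    | zero => simp
    | add u v _ _ hu hv => simp [mul_add, hu, hv]
    | smul a u _ hu => simp [hu]
  | zero => simp
  | add u v _ _ hu hv => simp [add_mul, hu, hv]
  | smul a u _ hu => simp [hu]

/-- The first column with given entries. -/
def col {A : Type} [CommRing A] : (Fin 2 → A) →ₗ[A] M2 A :=
  { toFun := fun x => Matrix.of fun i j => if j = 0 then x i else 0
    map_add' := fun x y => by ext i j; by_cases h : j = 0 <;> simp [h]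
    map_smul' := fun a x => by ext i j; by_cases h : j = 0 <;> simp [h] }

theorem col_mulVec {A : Type} [CommRing A] (M : M2 A) (x : Fin 2 → A) :
    col (M.mulVec x) = M * col x := by
  ext i j
  fin_cases i <;> fin_cases j <;> simp [col, Matrix.mul_apply, Matrix.mulVec, dotProduct]

/-- An equivariant map of the plane into the functions on `W` with small kernel. -/
theorem exists_plane_map (Lf : Lift R L) (hk : Compat R) (actW : GG →* Module.End L.R W)
    (hrel : ∀ (σ : GG) (w : W),
      actW σ (actW σ w) + detGL (L.ρ σ) • w = trGL (L.ρ σ) • actW σ w) :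
    ∃ Φ : (Fin 2 → L.R) →ₗ[L.R] (W → W),
      (∀ σ x, Φ ((Lf.ρ σ : M2 L.R).mulVec x) = fun w => actW σ (Φ x w)) ∧
      ∀ x, Φ x = 0 → ∀ (i : Fin 2) (w : W), x i • w = 0 := by
  obtain ⟨Ψ, hΨ, h1, hm⟩ := exists_matrix_action Lf hk actW hrel
  refine ⟨LinearMap.ltoFun L.R W W L.R ∘ₗ Ψ ∘ₗ col, fun σ x => funext fun w => ?_, fun x hx i w => ?_⟩
  · show Ψ (col _) w = actW σ (Ψ (col x) w)
    rw [col_mulVec, hm, hΨ]
    rfl
  · have h0 : Ψ (col x) = 0 := LinearMap.ext fun w => congrFun hx w
    have e00 : Ψ (Matrix.single (0 : Fin 2) (0 : Fin 2) (x i)) = 0 := by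
      rw [show Matrix.single (0 : Fin 2) (0 : Fin 2) (x i) = Matrix.single 0 i (1 : L.R) * col x by
        ext a b
        fin_cases a <;> fin_cases b <;> fin_cases i <;> simp [col, Matrix.mul_apply],
        hm, h0, mul_zero]
    have e11 : Ψ (Matrix.single (1 : Fin 2) (1 : Fin 2) (x i)) = 0 := by
      rw [show Matrix.single (1 : Fin 2) (1 : Fin 2) (x i) =
          Matrix.single 1 0 (1 : L.R) * Matrix.single 0 0 (x i) * Matrix.single 0 1 (1 : L.R) by
        simp, hm, hm, e00, mul_zero, zero_mul]
    have e : x i • (1 : M2 L.R) = Matrix.single (0 : Fin 2) (0 : Fin 2) (x i) +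
        Matrix.single (1 : Fin 2) (1 : Fin 2) (x i) := by
      ext a b
      fin_cases a <;> fin_cases b <;> simp
    have := congrArg (fun f : Module.End L.R W => f w) ((map_smul Ψ (x i) 1).symm.trans
      ((congrArg Ψ e).trans ((map_add Ψ _ _).trans (by rw [e00, e11, add_zero]))))
    simpa [h1] using this

end FLTAgent.Lowering.P6.Tangent
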