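import Fermat.Agent.Lowering.P6.Normalise

/-!
# Representations determined by their traces

A representation spanning all matrices residually is trivial modulo an ideal at the elements which
do not change the traces modulo that ideal.
-/

set_option autoImplicit false
set_option linter.unusedSectionVars false
set_option linter.style.haveILetI false

noncomputable section

open IsLocalRing FLTAgent.Deformation

namespace FLTAgent.Lowering.P6.Tangent

variable {G : Type} [Group G] {A : Type} [CommRing A]

local notation "M2" => Matrix (Fin 2) (Fin 2)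

/-- Elements which do not change traces modulo an ideal. -/
theorem entry_sub_one_mem (r : G →* GL (Fin 2) A)
    (hr : Submodule.span A (Set.range fun g => (r g : M2 A)) = ⊤) (I : Ideal A) (s : G)
    (h : ∀ g, trGL (r (g * s)) - trGL (r g) ∈ I) (i j : Fin 2) :
    (r s : M2 A) i j - (1 : M2 A) i j ∈ I := by
  have key : ∀ y : M2 A, Matrix.trace (y * ((r s : M2 A) - 1)) ∈ I := by
    intro y
    have hy : y ∈ Submodule.span A (Set.range fun g => (r g : M2 A)) := hr ▸ Submodule.mem_top
    induction hy using Submodule.span_induction with
    | mem x hx =>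
      obtain ⟨g, rfl⟩ := hx
      simpa [mul_sub, Matrix.trace_sub, map_mul, trGL] using h g
    | zero => simp
    | add x y _ _ hx hy => rw [add_mul, Matrix.trace_add]; exact I.add_mem hx hy
    | smul a x _ hx => rw [smul_mul_assoc, Matrix.trace_smul]; exact I.mul_mem_left a hx
  simpa [Matrix.trace_single_mul] using key (Matrix.single j i (1 : A))

/-- Elements which do not change traces. -/
theorem eq_one_of_traces (r : G →* GL (Fin 2) A)
    (hr : Submodule.span A (Set.range fun g => (r g : M2 A)) = ⊤) (s : G)
    (h : ∀ g, trGL (r (g * s)) = trGL (r g)) : r s = 1 := by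
  refine Units.ext (Matrix.ext fun i j => ?_)
  have := entry_sub_one_mem r hr ⊥ s (fun g => by rw [h g, sub_self]; exact zero_mem _) i j
  rwa [Ideal.mem_bot, sub_eq_zero] at this

/-- Determinants are determined by traces. -/
theorem two_mul_det (M : M2 A) : 2 * M.det = M.trace ^ 2 - (M * M).trace := by
  simp only [Matrix.det_fin_two, Matrix.trace_fin_two, Matrix.mul_apply, Fin.sum_univ_two]
  ring

theorem detGL_eq_of_trGL (h2 : IsUnit (2 : A)) (r r' : G →* GL (Fin 2) A)
    (h : ∀ g, trGL (r g) = trGL (r' g)) (g : G) : detGL (r g) = detGL (r' g) := by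
  refine h2.mul_left_cancel ?_
  rw [detGL, detGL, two_mul_det, two_mul_det, show Matrix.trace (r g : M2 A) = _ from h g]
  congr 1
  have h2 := h (g * g)
  rwa [trGL, trGL, map_mul, map_mul, Units.val_mul, Units.val_mul] at h2

/-- A matrix of trace two and determinant one is unipotent. -/
theorem sq_sub_one (M : M2 A) (ht : M.trace = 2) (hd : M.det = 1) : (M - 1) ^ 2 = 0 := by
  rw [Matrix.trace_fin_two] at ht
  rw [Matrix.det_fin_two] at hd
  have h11 : M 1 1 = 2 - M 0 0 := by linear_combination ht
  rw [h11] at hd
  rw [sq]
  ext i j
  fin_cases i <;> fin_cases j <;>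
    simp [Matrix.mul_apply, Fin.sum_univ_two, h11] <;> ring_nf <;> linear_combination (-1 : A) * hd

end FLTAgent.Lowering.P6.Tangent
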