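import Fermat.Agent.Lowering.P6.Tangent.Flat
import Fermat.Agent.Lowering.P6.Tangent.Local
import Fermat.Agent.Lowering.P6.Tame
import Fermat.Agent.Frobenius.Exists

/-!
# The count of tangent vectors

Tangent vectors and coboundaries together form a space of global cocycles satisfying the local
conditions of the tangent bound with auxiliary primes.
-/

set_option autoImplicit false
set_option linter.unusedSectionVars false
set_option linter.style.haveILetI false

noncomputable section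

open IsLocalRing
open FLTAgent.Lowering.P1 (Datum)
open scoped Pointwise

namespace FLTAgent.Lowering.P6.Tangent

local notation "LL" => AlgebraicClosure ℚ
local notation "GG" => (AlgebraicClosure ℚ ≃ₐ[ℚ] AlgebraicClosure ℚ)
local notation "M2" => Matrix (Fin 2) (Fin 2)

variable {p : ℕ} [Fact p.Prime] {O : Type} [CommRing O] [IsDomain O] [IsDiscreteValuationRing O]
  [Algebra ℤ_[p] O] {R : Residual p O} [Algebra (ZMod p) (ResidueField O)]

theorem ne_p_of_mem_T {t : ℕ} (ht : t ∈ R.S.T) : t ≠ p := fun h =>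
  R.S.M0_not_dvd (h ▸ (R.S.T_prime t ht).2.1)

theorem mem_bad_of_mem_T {t : ℕ} (ht : t ∈ R.S.T) : t ∈ R.D.bad := by
  rw [R.bad_eq]
  exact R.S.level_mem t (R.S.T_prime t ht).1 (R.S.T_prime t ht).2.1

theorem exists_tame {l : ℕ} (hl : l.Prime) (hlp : l ≠ p) {V : ValuationSubring LL}
    (hV : V.LiesOverPrime l) : Nonempty (TameGen p l V) := by
  obtain ⟨φ, hφ⟩ := Frobenius.exists_isFrobeniusAt (V := V) l hl hV
  obtain ⟨T, -⟩ := targetTameGen p l Fact.out hl hlp V hV φ hφ
  exact ⟨T⟩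

theorem rb_inertia_T {t : ℕ} (ht : t ∈ R.S.T) {V : ValuationSubring LL} (hV : V.LiesOverPrime t) :
    ∀ τ ∈ V.inertiaSubgroupIn ℚ, R.D.rb τ = 1 :=
  R.unramified t (R.S.T_prime t ht).1 (ne_p_of_mem_T ht) (Or.inr ht) V hV

theorem cobs_T_eq_bot {t : ℕ} (ht : t ∈ R.S.T) {V : ValuationSubring LL} (hV : V.LiesOverPrime t)
    (T : TameGen p t V) :
    R.D.cobs (ResidueField O) 0 (V.decompositionSubgroup ℚ).subtype = ⊥ := by
  haveI : Finite (ResidueField O) := Finite.of_equiv _ R.e.toEquiv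
  exact cobs_eq_bot_at_T R.D (ResidueField O) V T (rb_inertia_T ht hV)
    (R.scalar t ht V hV _ T.φ_frob)

variable (R) in
/-- The global coboundary map on trace zero matrices. -/
def bdyMap : ↥(Datum.trZero (ResidueField O)) →ₗ[ResidueField O] (GG → M2 (ResidueField O)) :=
  (R.D.bdy (ResidueField O) 0 (MonoidHom.id GG)).comp (Datum.trZero (ResidueField O)).subtype

theorem bdyMap_injective : Function.Injective (bdyMap R) := by
  rw [← LinearMap.ker_eq_bot, LinearMap.ker_eq_bot']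
  intro m hm
  exact Subtype.ext (bdy_injective R m.2 fun σ => sub_eq_zero.1 (congrFun hm σ))

theorem bdyMap_mem (m : ↥(Datum.trZero (ResidueField O))) :
    bdyMap R m ∈ R.D.cobs (ResidueField O) 0 (MonoidHom.id GG) := ⟨m, m.2, rfl⟩

theorem resAt_cobs (V : ValuationSubring LL) {c : GG → M2 (ResidueField O)}
    (hc : c ∈ R.D.cobs (ResidueField O) 0 (MonoidHom.id GG)) :
    Datum.resAt (ResidueField O) V c ∈
      R.D.cobs (ResidueField O) 0 (V.decompositionSubgroup ℚ).subtype := by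
  obtain ⟨m, hm, rfl⟩ := hc
  exact ⟨m, hm, rfl⟩

theorem cobs_le_outside {S : Finset ℕ} (hS : R.D.bad ⊆ S) :
    R.D.cobs (ResidueField O) 0 (MonoidHom.id GG) ≤
      R.D.cocyclesOutside (ResidueField O) 0 S := by
  intro c hc
  refine ⟨P1.Primes.cobs_le_cocycles R.D _ hc, fun l hl hlS V hV σ hσ => ?_⟩
  obtain ⟨m, -, hm⟩ := (P1.Primes.mem_cobs_iff R.D _).1 hc
  rw [hm, P1.Primes.tw_of_rb R.D _ 0 (σ := MonoidHom.id GG σ)
    (R.D.unramified l hl (fun h => hlS (hS h)) V hV σ hσ), sub_self]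

/-- The bound for the trivial tangent space. -/
theorem three_mul_card_lt {r : ℕ} {Q : Finset ℕ}
    (hQ : ∀ (V : ℕ → ValuationSubring LL), (∀ l ∈ R.D.bad, (V l).LiesOverPrime l) →
      ∀ (Zloc : ∀ l : ℕ, Submodule (ResidueField O)
          (↥((V l).decompositionSubgroup ℚ) → M2 (ResidueField O))),
        (∀ l ∈ R.D.bad,
          Zloc l ≤ R.D.cocycles (ResidueField O) 0 ((V l).decompositionSubgroup ℚ).subtype ∧
          R.D.cobs (ResidueField O) 0 ((V l).decompositionSubgroup ℚ).subtype ≤ Zloc l ∧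
          FiniteDimensional (ResidueField O) ↥(Zloc l)) →
      ∀ Z : Submodule (ResidueField O) (GG → M2 (ResidueField O)),
        Z ≤ R.D.cocyclesOutside (ResidueField O) 0 (R.D.bad ∪ Q) →
        (∀ z ∈ Z, ∀ l ∈ R.D.bad, Datum.resAt (ResidueField O) (V l) z ∈ Zloc l) →
        FiniteDimensional (ResidueField O) ↥Z ∧
          (Module.finrank (ResidueField O) ↥Z : ℤ) ≤
            2 + r + ∑ l ∈ R.D.bad, ((Module.finrank (ResidueField O) ↥(Zloc l) : ℤ) - 3)) :
    3 * R.S.T.card ≤ r := by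
  classical
  have hV : ∀ l, ∃ V : ValuationSubring LL, l ∈ R.D.bad → V.LiesOverPrime l := fun l => by
    by_cases h : l ∈ R.D.bad
    · obtain ⟨V, hV⟩ := Frobenius.exists_liesOverPrime l (R.D.bad_prime l h)
      exact ⟨V, fun _ => hV⟩
    · exact ⟨⊤, fun h' => absurd h' h⟩
  choose V hV using hV
  obtain ⟨-, h⟩ := hQ V hV
    (fun l => R.D.cobs (ResidueField O) 0 ((V l).decompositionSubgroup ℚ).subtype)
    (fun l _ => ⟨P1.Primes.cobs_le_cocycles R.D _, le_rfl, finite_cobs R.D _ _⟩)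
    (R.D.cobs (ResidueField O) 0 (MonoidHom.id GG))
    (cobs_le_outside Finset.subset_union_left)
    fun z hz l _ => resAt_cobs (V l) hz
  have h3 : Module.finrank (ResidueField O) ↥(R.D.cobs (ResidueField O) 0 (MonoidHom.id GG)) = 3 := by
    have e : R.D.cobs (ResidueField O) 0 (MonoidHom.id GG) = LinearMap.range (bdyMap R) := by
      rw [bdyMap, LinearMap.range_comp, Submodule.range_subtype]
      rfl
    rw [e, LinearMap.finrank_range_of_inj bdyMap_injective, finrank_trZero]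
  have hsum : ∀ l ∈ R.D.bad, (Module.finrank (ResidueField O)
      ↥(R.D.cobs (ResidueField O) 0 ((V l).decompositionSubgroup ℚ).subtype) : ℤ) - 3 ≤
      if l ∈ R.S.T then -3 else 0 := fun l hl => by
    split_ifs with hT
    · obtain ⟨T⟩ := exists_tame (R.D.bad_prime l hl) (ne_p_of_mem_T hT) (hV l hl)
      rw [cobs_T_eq_bot hT (hV l hl) T, finrank_bot]
      norm_num
    · have := finrank_cobs_le R.D (ResidueField O) ((V l).decompositionSubgroup ℚ).subtype
      omega
  have h4 := h.trans (add_le_add le_rfl (Finset.sum_le_sum hsum))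
  rw [h3, Finset.sum_ite_mem, Finset.inter_eq_right.2 (fun t ht => mem_bad_of_mem_T ht),
    Finset.sum_const, nsmul_eq_mul] at h4
  push_cast at h4
  omega

theorem zLin_eq_zero_of_one {X : Aux R.S} {L : LevelData X} (Lf : Lift R L)
    {d : L.R → ResidueField O} (hd : IsDer L.red d) {σ : GG} (h : Lf.ρ σ = 1) :
    Lf.zLin d σ = 0 := by
  have h0 : (Lf.ρ σ : M2 L.R).map d = 0 := by
    rw [h]
    ext i j
    by_cases hij : i = j <;> simp [hij, hd.one, hd.zero']
  rw [Lift.zLin_apply, h0, zero_mul]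

theorem not_dvd_level {X : Aux R.S} {l : ℕ} (hl : l.Prime) (hM : ¬ l ∣ R.S.M0) (hQ : l ∉ X.Q) :
    ¬ l ∣ X.level := by
  intro h
  rcases hl.dvd_mul.1 h with h | h
  · exact hM h
  · obtain ⟨q, hq, hlq⟩ := (hl.prime.dvd_finset_prod_iff _).1 h
    exact hQ ((Nat.prime_dvd_prime_iff_eq hl (X.prime q hq)).1 hlq ▸ hq)

/-- The local spaces at the bad primes. -/
theorem exists_loc {X : Aux R.S} {L : LevelData X} (Lf : Lift R L) (hk : Compat R)
    (g : ∀ t ∈ R.S.T, GG × GG) {l : ℕ} (hl : l ∈ R.D.bad) {V : ValuationSubring LL}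
    (hV : V.LiesOverPrime l)
    (hg : ∀ ht : l ∈ R.S.T, ∃ T : TameGen p l V, (T.σ : GG) = (g l ht).1 ∧ (T.φ : GG) = (g l ht).2) :
    ∃ Z : Submodule (ResidueField O) (↥(V.decompositionSubgroup ℚ) → M2 (ResidueField O)),
      Z ≤ R.D.cocycles (ResidueField O) 0 (V.decompositionSubgroup ℚ).subtype ∧
      R.D.cobs (ResidueField O) 0 (V.decompositionSubgroup ℚ).subtype ≤ Z ∧
      FiniteDimensional (ResidueField O) ↥Z ∧
      Module.finrank (ResidueField O) ↥Z ≤ (if l ∈ R.S.T then 0 else if l = p then 4 else 3) ∧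
      ∀ d ∈ tangent R L Lf.ρ g, Datum.resAt (ResidueField O) V (Lf.zLin d) ∈ Z := by
  haveI : Finite (ResidueField O) := Finite.of_equiv _ R.e.toEquiv
  have hlP := R.D.bad_prime l hl
  have hder : ∀ {d}, d ∈ tangent R L Lf.ρ g → IsDer L.red d := fun h => ⟨h.1, h.2.1, h.2.2.1⟩
  have hmem : ∀ {d}, d ∈ tangent R L Lf.ρ g →
      Datum.resAt (ResidueField O) V (Lf.zLin d) ∈
        R.D.cocycles (ResidueField O) 0 (V.decompositionSubgroup ℚ).subtype :=
    fun h => P1.Primes.resAt_mem R.D _ (Lf.zLin_mem hk (hder h)) V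
  by_cases hT : l ∈ R.S.T
  · obtain ⟨T, hTσ, hTφ⟩ := hg hT
    refine ⟨⊥, bot_le, (cobs_T_eq_bot hT hV T).le, inferInstance, by rw [finrank_bot]; exact Nat.zero_le _,
      fun d hd => (Submodule.mem_bot _).2 ?_⟩
    refine eq_zero_at_T R.D (ResidueField O) V T (rb_inertia_T hT hV) (hmem hd) ?_ ?_
    · have h0 : (Lf.ρ (g l hT).1 : M2 L.R).map d = 0 :=
        Matrix.ext fun i j => (hd.2.2.2 l hT i j).1
      show Lf.zLin d (T.σ : GG) = 0
      rw [hTσ, Lift.zLin_apply, h0, zero_mul]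
    · have h0 : (Lf.ρ (g l hT).2 : M2 L.R).map d = 0 :=
        Matrix.ext fun i j => (hd.2.2.2 l hT i j).2
      show Lf.zLin d (T.φ : GG) = 0
      rw [hTφ, Lift.zLin_apply, h0, zero_mul]
  rw [if_neg hT]
  by_cases hp : l = p
  · subst hp
    obtain ⟨Z, h1, h2, h3, h4, h5⟩ := exists_flatLoc Lf hk hV
    exact ⟨Z, h1, h2, h3, by rw [if_pos rfl]; exact h4, fun d hd => h5 d (hder hd)⟩
  rw [if_neg hp]
  obtain ⟨T⟩ := exists_tame hlP hp hV
  by_cases hM : l ∣ R.S.M0
  · have hsq : ∀ τ ∈ V.inertiaSubgroupIn ℚ, ((Lf.ρ τ : M2 L.R) - 1) * ((Lf.ρ τ : M2 L.R) - 1) = 0 := by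
      intro τ hτ
      obtain ⟨ht, hd, -⟩ := L.unipotent l hlP hM hT V hV τ hτ
      rw [← sq]
      exact sq_sub_one _ ((Lf.tr_eq τ).trans ht) ((Lf.det_eq τ).trans hd)
    have hu : ∀ τ ∈ V.inertiaSubgroupIn ℚ,
        ((R.D.rbk (ResidueField O) τ : M2 (ResidueField O)) - 1) ^ 2 = 0 := fun τ hτ => by
      have h := congrArg L.red.toRingHom.mapMatrix (hsq τ hτ)
      rw [map_mul, map_sub, map_one, map_zero] at h
      rw [sq, ← Lf.red_map hk]
      exact h
    obtain ⟨τ, hτ, hne⟩ := R.ramified l hlP hM hT V hV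
    obtain ⟨h1, h2, h3⟩ := uniLoc_bound R.D (ResidueField O) V hlP hp T hu ⟨τ, hτ, hne⟩
    refine ⟨uniLoc R.D (ResidueField O) V, inf_le_left, h1, h2, h3,
      fun d hd => (mem_uniLoc R.D _ V).2 ⟨hmem hd, fun τ hτ => ?_⟩⟩
    have hd' := hder hd
    have h := congrArg (Matrix.map · d) (hsq _ hτ)
    simp only [hd'.map_matrix_mul] at h
    have e1 : ((Lf.ρ (τ : GG) : M2 L.R) - 1).map L.red =
        (R.D.rbk (ResidueField O) (τ : GG) : M2 (ResidueField O)) - 1 := by
      rw [← Lf.red_map hk]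
      ext i j
      by_cases hij : i = j <;> simp [hij]
    have e2 : ((Lf.ρ (τ : GG) : M2 L.R) - 1).map d =
        Lf.zLin d (τ : GG) * (R.D.rbk (ResidueField O) (τ : GG) : M2 (ResidueField O)) := by
      rw [Lift.zLin_mul_rbk]
      ext i j
      by_cases hij : i = j <;> simp [hij, hd'.sub, hd'.one, hd'.zero']
    rw [e1, e2] at h
    refine h.trans ?_
    ext i j
    simp [hd'.zero']
  · have hI : ∀ τ ∈ V.inertiaSubgroupIn ℚ, R.D.rb τ = 1 :=
      R.unramified l hlP hp (Or.inl hM) V hV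
    obtain ⟨h1, h2, h3⟩ := unrLoc_bound R.D (ResidueField O) V T hI
    have hQ : l ∉ X.Q := fun h => X.notMem l h (R.bad_eq ▸ hl)
    refine ⟨unrLoc R.D (ResidueField O) V, inf_le_left, h1, h2, h3,
      fun d hd => (mem_unrLoc R.D _ V).2 ⟨hmem hd, fun τ hτ => ?_⟩⟩
    exact zLin_eq_zero_of_one Lf (hder hd)
      (Lf.eq_one (L.unramified l hlP hp (not_dvd_level hlP hM hQ) V hV τ hτ))

end FLTAgent.Lowering.P6.Tangent

namespace FLTAgent.Lowering.P6

open Tangent

local notation "LL" => AlgebraicClosure ℚ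
local notation "GG" => (AlgebraicClosure ℚ ≃ₐ[ℚ] AlgebraicClosure ℚ)

/-- **Tangent vectors are bounded by the number of auxiliary primes.** -/
theorem targetTangent (hTW : P1.TargetTWBound) : TargetTangent := by
  classical
  intro p _ O _ _ _ _ _ _ R
  letI : Algebra (ZMod p) (ResidueField O) := R.e.toRingHom.toAlgebra
  haveI : Finite (ResidueField O) := Finite.of_equiv _ R.e.toEquiv
  haveI : FiniteDimensional (ZMod p) (ResidueField O) := Module.Finite.of_finite
  have hk : Compat R := fun σ => by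
    rw [rbM, R.rb_eq]
    rfl
  obtain ⟨r, hr⟩ := hTW p R.D (ResidueField O) R.D.bad subset_rfl R.D.bad_prime
  refine ⟨r, ?_, fun n => ?_⟩
  · obtain ⟨Q, -, -, h⟩ := hr 0 ∅
    exact three_mul_card_lt h
  obtain ⟨Q, hQc, hQ, h⟩ := hr n ∅
  have hα := fun q (hq : q ∈ Q) => (hQ q hq).2.2.2.2.2.2
  choose α hα2 hα3 using hα
  let X : Aux R.S :=
    { Q := Q
      prime := fun q hq => (hQ q hq).2.2.1
      notMem := fun q hq => R.bad_eq ▸ (hQ q hq).2.1
      one_mod := fun q hq => (hQ q hq).2.2.2.2.1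
      α := fun q => if hq : q ∈ Q then algebraMap (ZMod p) (ResidueField O) (α q hq) else 0
      α_sq := fun q hq => by
        simp only [dif_pos hq]
        rw [← map_pow, ← map_one (algebraMap (ZMod p) (ResidueField O))]
        exact fun e => hα2 q hq ((algebraMap (ZMod p) (ResidueField O)).injective e)
      α_root := fun q hq V hV σ hσ => by
        simp only [dif_pos hq]
        have e := congrArg (algebraMap (ZMod p) (ResidueField O)) (hα3 q hq V hV σ hσ)
        have et : trGL (R.S.rb σ) = algebraMap (ZMod p) (ResidueField O)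
            (Matrix.trace (R.D.rb σ : Matrix (Fin 2) (Fin 2) (ZMod p))) := by
          rw [R.rb_eq, trGL, Matrix.trace_fin_two, Matrix.trace_fin_two, map_add]
          rfl
        rw [et]
        simpa using e }
  refine ⟨X, hQc, fun q hq => (hQ q hq).2.2.2.2.2.1, fun L ρ htr hred g hg => ?_⟩
  let Lf : Lift R L := ⟨ρ, htr, hred⟩
  have hV : ∀ l, ∃ V : ValuationSubring LL, (l ∈ R.D.bad → V.LiesOverPrime l) ∧
      ∀ ht : l ∈ R.S.T, ∃ T : TameGen p l V, (T.σ : GG) = (g l ht).1 ∧ (T.φ : GG) = (g l ht).2 := by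
    intro l
    by_cases hT : l ∈ R.S.T
    · obtain ⟨V, T, hV, h1, h2⟩ := hg l hT
      exact ⟨V, fun _ => hV, fun _ => ⟨T, h1, h2⟩⟩
    · by_cases hb : l ∈ R.D.bad
      · obtain ⟨V, hV⟩ := Frobenius.exists_liesOverPrime l (R.D.bad_prime l hb)
        exact ⟨V, fun _ => hV, fun h => absurd h hT⟩
      · exact ⟨⊤, fun h => absurd h hb, fun h => absurd h hT⟩
  choose V hV hVT using hV
  have hloc : ∀ l, ∃ Z : Submodule (ResidueField O)
      (↥((V l).decompositionSubgroup ℚ) → Matrix (Fin 2) (Fin 2) (ResidueField O)),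
      l ∈ R.D.bad →
      Z ≤ R.D.cocycles (ResidueField O) 0 ((V l).decompositionSubgroup ℚ).subtype ∧
      R.D.cobs (ResidueField O) 0 ((V l).decompositionSubgroup ℚ).subtype ≤ Z ∧
      FiniteDimensional (ResidueField O) ↥Z ∧
      Module.finrank (ResidueField O) ↥Z ≤ (if l ∈ R.S.T then 0 else if l = p then 4 else 3) ∧
      ∀ d ∈ tangent R L ρ g, P1.Datum.resAt (ResidueField O) (V l) (Lf.zLin d) ∈ Z := by
    intro l
    by_cases hb : l ∈ R.D.bad
    · obtain ⟨Z, hZ⟩ := exists_loc Lf hk g hb (hV l hb) (hVT l)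
      exact ⟨Z, fun _ => hZ⟩
    · exact ⟨⊥, fun h => absurd h hb⟩
  choose Zloc hZloc using hloc
  let Φ : ↥(tangent R L ρ g) × ↥(P1.Datum.trZero (ResidueField O)) →ₗ[ResidueField O]
      (GG → Matrix (Fin 2) (Fin 2) (ResidueField O)) :=
    (Lf.zLin.comp (tangent R L ρ g).subtype).coprod (bdyMap R)
  have hder : ∀ d : ↥(tangent R L ρ g), IsDer L.red (d : L.R → ResidueField O) :=
    fun d => ⟨d.2.1, d.2.2.1, d.2.2.2.1⟩
  have hΦ : Function.Injective Φ := by
    rw [← LinearMap.ker_eq_bot, LinearMap.ker_eq_bot']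
    intro x hx
    change Lf.zLin (x.1 : L.R → ResidueField O) + bdyMap R x.2 = 0 at hx
    have hx1 : (x.1 : L.R → ResidueField O) = 0 := by
      refine Lf.eq_zero_of_cobs hk (hder x.1) ?_
      rw [eq_neg_of_add_eq_zero_left hx]
      exact neg_mem (bdyMap_mem x.2)
    rw [hx1, map_zero, zero_add] at hx
    exact Prod.ext (Subtype.ext hx1) (bdyMap_injective (hx.trans (map_zero _).symm))
  have hout : ∀ d : ↥(tangent R L ρ g),
      Lf.zLin (d : L.R → ResidueField O) ∈
        R.D.cocyclesOutside (ResidueField O) 0 (R.D.bad ∪ Q) := fun d =>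
    ⟨Lf.zLin_mem hk (hder d), fun l hl hlS W hW σ hσ => by
      simp only [Finset.mem_union, not_or] at hlS
      have hlp : l ≠ p := fun h => hlS.1 (h ▸ R.D.p_mem)
      have hlM : ¬ l ∣ R.S.M0 := fun h => hlS.1 (R.bad_eq ▸ R.S.level_mem l hl h)
      exact zLin_eq_zero_of_one Lf (hder d)
        (Lf.eq_one (L.unramified l hl hlp (not_dvd_level hl hlM hlS.2) W hW σ hσ))⟩
  obtain ⟨hfin, hdim⟩ := h V (fun l hl => hV l hl) Zloc
    (fun l hl => ⟨(hZloc l hl).1, (hZloc l hl).2.1, (hZloc l hl).2.2.1⟩) (LinearMap.range Φ)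
    (by
      rintro _ ⟨x, rfl⟩
      exact add_mem (hout x.1) (cobs_le_outside Finset.subset_union_left (bdyMap_mem x.2)))
    (by
      rintro _ ⟨x, rfl⟩ l hl
      show P1.Datum.resAt (ResidueField O) (V l)
        (Lf.zLin (x.1 : L.R → ResidueField O) + bdyMap R x.2) ∈ Zloc l
      rw [map_add]
      exact add_mem ((hZloc l hl).2.2.2.2 _ x.1.2)
        ((hZloc l hl).2.1 (resAt_cobs (V l) (bdyMap_mem x.2))))
  haveI := hfin
  haveI : FiniteDimensional (ResidueField O)
      (↥(tangent R L ρ g) × ↥(P1.Datum.trZero (ResidueField O))) :=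
    Module.Finite.equiv (LinearEquiv.ofInjective Φ hΦ).symm
  have hfd : FiniteDimensional (ResidueField O) ↥(tangent R L ρ g) :=
    Module.Finite.of_surjective
      (LinearMap.fst (ResidueField O) ↥(tangent R L ρ g) ↥(P1.Datum.trZero (ResidueField O)))
      fun d => ⟨(d, 0), rfl⟩
  refine ⟨hfd, ?_⟩
  rw [LinearMap.finrank_range_of_inj hΦ, Module.finrank_prod, finrank_trZero] at hdim
  have hp : p ∈ R.D.bad := R.D.p_mem
  have hsum : ∀ l ∈ R.D.bad, (Module.finrank (ResidueField O) ↥(Zloc l) : ℤ) - 3 ≤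
      (if l ∈ R.S.T then -3 else 0) + (if l = p then 1 else 0) := fun l hl => by
    have h4 := (hZloc l hl).2.2.2.1
    by_cases hT : l ∈ R.S.T
    · rw [if_pos hT] at h4 ⊢
      rw [if_neg (ne_p_of_mem_T hT)]
      omega
    · rw [if_neg hT] at h4 ⊢
      by_cases hlp : l = p
      · rw [if_pos hlp] at h4 ⊢
        omega
      · rw [if_neg hlp] at h4 ⊢
        omega
  have h5 := hdim.trans (add_le_add le_rfl (Finset.sum_le_sum hsum))
  rw [Finset.sum_add_distrib, Finset.sum_ite_mem,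
    Finset.inter_eq_right.2 (fun t ht => mem_bad_of_mem_T ht), Finset.sum_const, nsmul_eq_mul,
    Finset.sum_ite_eq' R.D.bad p, if_pos hp] at h5
  push_cast at h5
  omega

end FLTAgent.Lowering.P6
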